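import Fermat.Agent.FlatGS.Pi

/-!
# Flatness of a Galois representation from a transfer principle

If every element of `ℤ[G_ℚ]` which kills `J[p^m]` maps `V` to `p^n V`, and all the `J[p^m]` are
finite flat over `ℤ_(p)`, then `V` is flat at `p`.
-/

set_option autoImplicit false

namespace Fermat.Agent.FlatGS

/-- the additive map `ℤ[G] → M` given by a function `G → M`. -/
noncomputable def sumHom {G M : Type*} [AddCommGroup M] (e : G → M) : (G →₀ ℤ) →+ M :=
  Finsupp.liftAddHom fun g => zmultiplesHom M (e g)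

lemma sumHom_apply {G M : Type*} [AddCommGroup M] (e : G → M) (y : G →₀ ℤ) :
    sumHom e y = y.sum fun g c => c • e g := rfl

lemma map_sumHom {G M N : Type*} [AddCommGroup M] [AddCommGroup N] (φ : M →+ N) (e : G → M)
    (y : G →₀ ℤ) : φ (sumHom e y) = sumHom (fun g => φ (e g)) y := by
  rw [sumHom_apply, sumHom_apply, Finsupp.sum, Finsupp.sum, map_sum]
  simp

lemma sumHom_mapDomain {G M : Type*} [AddCommGroup M] (e : G → M) (s : G → G)
    (y : G →₀ ℤ) : sumHom e (Finsupp.mapDomain s y) = sumHom (fun g => e (s g)) y := by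
  rw [sumHom_apply, sumHom_apply, Finsupp.sum_mapDomain_index]
  · intro g; rw [zero_smul]
  · intro g a b; rw [add_smul]

/-- the Galois action on the torsion of `J`. -/
noncomputable def torsAct {J : Type*} [AddCommGroup J] [DistribMulAction GQ J] (a : ℤ) (σ : GQ)
    (x : Submodule.torsionBy ℤ J a) : Submodule.torsionBy ℤ J a :=
  ⟨σ • (x : J), by
    rw [Submodule.mem_torsionBy_iff]
    have h := (Submodule.mem_torsionBy_iff a (x : J)).mp x.2
    have h2 : a • (σ • (x : J)) = σ • (a • (x : J)) :=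
      (map_zsmul (DistribSMul.toAddMonoidHom J σ) a (x : J)).symm
    rw [h2, h, smul_zero]⟩

@[simp] lemma coe_torsAct {J : Type*} [AddCommGroup J] [DistribMulAction GQ J] (a : ℤ) (σ : GQ)
    (x : Submodule.torsionBy ℤ J a) : (torsAct a σ x : J) = σ • (x : J) := rfl

lemma exists_pow_mem_of_finite {A : Type*} [CommRing A] [IsLocalRing A] {a : A}
    (ha : a ∈ IsLocalRing.maximalIdeal A) (I : Ideal A) [Finite (A ⧸ I)] : ∃ n : ℕ, a ^ n ∈ I := by
  obtain ⟨i, j, hij, h⟩ := Finite.exists_ne_map_eq_of_infinite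
    (fun n : ℕ => Ideal.Quotient.mk I (a ^ n))
  wlog hlt : i < j generalizing i j
  · exact this j i hij.symm h.symm (lt_of_le_of_ne (not_lt.mp hlt) hij.symm)
  refine ⟨i, ?_⟩
  have h1 : a ^ i - a ^ j ∈ I := (Ideal.Quotient.eq).mp h
  have h2 : a ^ i - a ^ j = a ^ i * (1 - a ^ (j - i)) := by
    rw [mul_sub, mul_one, ← pow_add, Nat.add_sub_cancel' hlt.le]
  rw [h2] at h1
  have h3 : IsUnit (1 - a ^ (j - i)) := by
    have h4 : a ^ (j - i) ∈ IsLocalRing.maximalIdeal A :=
      Ideal.pow_mem_of_mem _ ha _ (Nat.sub_pos_of_lt hlt)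
    exact (IsLocalRing.isUnit_or_isUnit_one_sub_self (a ^ (j - i))).resolve_left
      (fun h => (IsLocalRing.mem_maximalIdeal _).mp h4 h)
  exact (Ideal.mul_unit_mem_iff_mem I h3).mp h1

variable {A : Type} [CommRing A] [IsLocalRing A]

lemma levelAction_mkQ (ρ : GaloisRepAdic A) (I : Ideal A) (σ : GQ) (v : ρ.V) :
    ρ.levelAction I σ (Submodule.mkQ (I • (⊤ : Submodule A ρ.V)) v) =
      Submodule.mkQ (I • (⊤ : Submodule A ρ.V)) (ρ.ρ σ v) := rfl

/-- flatness from the transfer principle -/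
theorem isFlatAt_of_transfer (ρ : GaloisRepAdic A) {p : ℕ}
    (hres : Finite (IsLocalRing.ResidueField A)) (hpA : (p : A) ∈ IsLocalRing.maximalIdeal A)
    {J : Type} [AddCommGroup J] [DistribMulAction GQ J]
    (hflat : ∀ m : ℕ, IsFlatModule p (M := Submodule.torsionBy ℤ J ((p : ℤ) ^ m)) (torsAct _))
    (htrans : ∀ n : ℕ, ∃ m : ℕ, ∀ y : GQ →₀ ℤ,
      (∀ x : J, p ^ m • x = 0 → (y.sum fun g c => c • (g • x)) = 0) →
      ∀ v : ρ.V, (y.sum fun g c => c • ρ.ρ g v) ∈
        (Ideal.span {(p : A) ^ n}) • (⊤ : Submodule A ρ.V)) :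
    ρ.IsFlatAt p := by
  classical
  refine ⟨hres, fun I hI => ?_⟩
  obtain ⟨n, hn⟩ := exists_pow_mem_of_finite hpA I
  obtain ⟨m, hm⟩ := htrans n
  have hfinJ : Finite (Submodule.torsionBy ℤ J ((p : ℤ) ^ m)) := (hflat m).finite
  have hfinQ : Finite (ρ.V ⧸ (I • (⊤ : Submodule A ρ.V))) := Module.finite_of_finite (A ⧸ I)
  have hmk : Function.Surjective (Submodule.mkQ (I • (⊤ : Submodule A ρ.V))) :=
    Submodule.mkQ_surjective _
  let T := Submodule.torsionBy ℤ J ((p : ℤ) ^ m)
  let Q := ρ.V ⧸ (I • (⊤ : Submodule A ρ.V))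
  let v : Q → ρ.V := Function.surjInv hmk
  have hv : ∀ x : Q, Submodule.mkQ (I • (⊤ : Submodule A ρ.V)) (v x) = x :=
    Function.surjInv_eq hmk
  cases nonempty_fintype Q
  -- the correspondence
  let f : (Q → GQ →₀ ℤ) →+ (Q × T → T) :=
    { toFun := fun y qx => sumHom (fun g => torsAct _ g qx.2) (y qx.1)
      map_zero' := by funext qx; exact map_zero _
      map_add' := fun a b => by funext qx; exact map_add _ _ _ }
  let q : (Q → GQ →₀ ℤ) →+ Q :=
    { toFun := fun y => ∑ x : Q, sumHom (fun g => ρ.levelAction I g x) (y x)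
      map_zero' := by simp
      map_add' := fun a b => by simp [Finset.sum_add_distrib] }
  let actX : GQ → (Q → GQ →₀ ℤ) → (Q → GQ →₀ ℤ) := fun σ y x =>
    Finsupp.mapDomain (fun g => σ * g) (y x)
  have hpow := (hflat m).pi (Q × T)
  refine IsFlatModule.of_ker_le (p := p) (N := Q × T → T) (Q := Q)
    (actQ := fun σ x => ρ.levelAction I σ x) actX hpow f q ?_ ?_ ?_ ?_
  · -- surjectivity
    intro x
    refine ⟨Pi.single x (Finsupp.single 1 1), ?_⟩
    change ∑ z : Q, sumHom (fun g => ρ.levelAction I g z)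
      ((Pi.single x (Finsupp.single (1 : GQ) (1 : ℤ)) : Q → GQ →₀ ℤ) z) = x
    rw [Finset.sum_eq_single x]
    · rw [Pi.single_eq_same, sumHom_apply, Finsupp.sum_single_index (by rw [zero_smul]), one_smul,
        ← hv x]
      rw [levelAction_mkQ, map_one]
      rfl
    · intro z _ hz
      rw [Pi.single_eq_of_ne hz, map_zero]
    · intro h; exact absurd (Finset.mem_univ _) h
  · intro σ y
    funext qx
    change sumHom (fun g => torsAct _ g qx.2) (Finsupp.mapDomain (fun g => σ * g) (y qx.1)) =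
      torsAct _ σ (sumHom (fun g => torsAct _ g qx.2) (y qx.1))
    rw [sumHom_mapDomain]
    let φ : T →+ T :=
      { toFun := torsAct _ σ
        map_zero' := (hflat m).act_zero σ
        map_add' := (hflat m).act_add σ }
    refine Eq.trans ?_ (map_sumHom φ _ _).symm
    congr 1
    have : (fun g => torsAct ((p : ℤ) ^ m) (σ * g) qx.2) =
        fun g => φ (torsAct ((p : ℤ) ^ m) g qx.2) := by
      funext g
      apply Subtype.ext
      exact mul_smul σ g (qx.2 : J)
    rw [this]
  · intro σ y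
    change ∑ z : Q, sumHom (fun g => ρ.levelAction I g z)
      (Finsupp.mapDomain (fun g => σ * g) (y z)) = ρ.levelAction I σ (∑ z : Q, _)
    rw [map_sum]
    refine Finset.sum_congr rfl fun z _ => ?_
    rw [sumHom_mapDomain]
    refine Eq.trans ?_ (map_sumHom (ρ.levelAction I σ).toAddMonoidHom _ _).symm
    have : (fun g => ρ.levelAction I (σ * g) z) =
        fun g => (ρ.levelAction I σ).toAddMonoidHom (ρ.levelAction I g z) := by
      funext g
      change _ = ρ.levelAction I σ (ρ.levelAction I g z)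
      rw [← hv z, levelAction_mkQ, levelAction_mkQ, levelAction_mkQ, map_mul]
      rfl
    rw [this]
  · intro y hy
    rw [AddMonoidHom.mem_ker] at hy ⊢
    change ∑ z : Q, sumHom (fun g => ρ.levelAction I g z) (y z) = 0
    refine Finset.sum_eq_zero fun z _ => ?_
    have hyz : ∀ x : J, p ^ m • x = 0 → ((y z).sum fun g c => c • (g • x)) = 0 := by
      intro x hx
      have hxT : x ∈ Submodule.torsionBy ℤ J ((p : ℤ) ^ m) := by
        rw [Submodule.mem_torsionBy_iff, ← hx, ← Nat.cast_pow, natCast_zsmul]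
      have h1 := congrFun hy (z, ⟨x, hxT⟩)
      have h2 : sumHom (fun g => torsAct ((p : ℤ) ^ m) g ⟨x, hxT⟩) (y z) = 0 := h1
      have h3 := congrArg (Submodule.subtype (Submodule.torsionBy ℤ J ((p : ℤ) ^ m))) h2
      rw [map_zero] at h3
      have h4 := map_sumHom (Submodule.subtype (Submodule.torsionBy ℤ J
        ((p : ℤ) ^ m))).toAddMonoidHom (fun g => torsAct ((p : ℤ) ^ m) g ⟨x, hxT⟩) (y z)
      exact h4.symm.trans h3
    have h5 := hm (y z) hyz (v z)
    have h6 : ((y z).sum fun g c => c • ρ.ρ g (v z)) ∈ I • (⊤ : Submodule A ρ.V) := by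
      refine Submodule.smul_mono_left ?_ h5
      rw [Ideal.span_singleton_le_iff_mem]
      exact hn
    have h7 : Submodule.mkQ (I • (⊤ : Submodule A ρ.V)) ((y z).sum fun g c => c • ρ.ρ g (v z)) = 0 := by
      rw [Submodule.mkQ_apply, Submodule.Quotient.mk_eq_zero]
      exact h6
    have h8 := map_sumHom (Submodule.mkQ (I • (⊤ : Submodule A ρ.V))).toAddMonoidHom
      (fun g => ρ.ρ g (v z)) (y z)
    refine Eq.trans ?_ (h8.symm.trans h7)
    congr 1
    have : (fun g => ρ.levelAction I g z) = fun g =>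
      (Submodule.mkQ (I • (⊤ : Submodule A ρ.V))).toAddMonoidHom (ρ.ρ g (v z)) := by
      funext g
      conv_lhs => rw [← hv z]
      rw [levelAction_mkQ]
      rfl
    rw [this]

end Fermat.Agent.FlatGS
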