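import Fermat.Agent.FlatGS.FromTransfer
import Fermat.Prelude.Def_GaloisRep_DeformationCondition

/-!
# Flat representations: base change, descent along injections, fibre products, limits
-/

set_option autoImplicit false

namespace Fermat.Agent.FlatGS

open IsLocalRing
open scoped TensorProduct

variable {A : Type} [CommRing A] [IsLocalRing A]

lemma isFlatAt_iff (ρ : GaloisRepAdic A) (p : ℕ) :
    ρ.IsFlatAt p ↔ Finite (ResidueField A) ∧
      ∀ I : Ideal A, Finite (A ⧸ I) → IsFlatModule p (fun σ x => ρ.levelAction I σ x) := Iff.rfl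

section BaseChange

variable {B : Type} [CommRing B] [IsLocalRing B]

/-- the map `v ↦ b ⊗ v` -/
noncomputable def tmulHom (φ : A →+* B) (hφ : IsLocalHom φ) (ρ : GaloisRepAdic A) (b : B) :
    ρ.V →+ (ρ.baseChangeAlong φ hφ).V :=
  letI : Algebra A B := φ.toAlgebra
  { toFun := fun v => (b ⊗ₜ[A] v : B ⊗[A] ρ.V)
    map_zero' := TensorProduct.tmul_zero _ _
    map_add' := TensorProduct.tmul_add _ }

variable (φ : A →+* B) (hφ : IsLocalHom φ) (ρ : GaloisRepAdic A)

lemma tmulHom_act (b : B) (σ : GQ) (v : ρ.V) :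
    tmulHom φ hφ ρ b (ρ.ρ σ v) = (ρ.baseChangeAlong φ hφ).ρ σ (tmulHom φ hφ ρ b v) := rfl

lemma tmulHom_add (b b' : B) (v : ρ.V) :
    tmulHom φ hφ ρ (b + b') v = tmulHom φ hφ ρ b v + tmulHom φ hφ ρ b' v :=
  letI : Algebra A B := φ.toAlgebra
  TensorProduct.add_tmul b b' v

lemma smul_tmulHom (b b' : B) (v : ρ.V) :
    b • tmulHom φ hφ ρ b' v = tmulHom φ hφ ρ (b * b') v :=
  letI : Algebra A B := φ.toAlgebra
  TensorProduct.smul_tmul' b b' v

lemma tmulHom_smul (b : B) (a : A) (v : ρ.V) :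
    tmulHom φ hφ ρ b (a • v) = tmulHom φ hφ ρ (φ a * b) v := by
  let : Algebra A B := φ.toAlgebra
  change b ⊗ₜ[A] (a • v) = (φ a * b) ⊗ₜ[A] v
  rw [TensorProduct.tmul_smul, TensorProduct.smul_tmul', Algebra.smul_def]
  rfl

lemma tmulHom_mem (I : Ideal A) (J : Ideal B) (hIJ : I ≤ J.comap φ) (b : B) {v : ρ.V}
    (hv : v ∈ I • (⊤ : Submodule A ρ.V)) :
    tmulHom φ hφ ρ b v ∈ J • (⊤ : Submodule B (ρ.baseChangeAlong φ hφ).V) := by
  refine Submodule.smul_induction_on hv ?_ ?_
  · intro a ha w _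
    rw [tmulHom_smul, ← smul_tmulHom]
    exact Submodule.smul_mem_smul (hIJ ha) Submodule.mem_top
  · intro x y hx hy
    rw [map_add]
    exact Submodule.add_mem _ hx hy

lemma tmulHom_mem_of_left (J : Ideal B) {b : B} (hb : b ∈ J) (v : ρ.V) :
    tmulHom φ hφ ρ b v ∈ J • (⊤ : Submodule B (ρ.baseChangeAlong φ hφ).V) := by
  rw [← mul_one b, ← smul_tmulHom]
  exact Submodule.smul_mem_smul hb Submodule.mem_top

lemma baseChange_induction {P : (ρ.baseChangeAlong φ hφ).V → Prop}
    (h0 : P 0) (h1 : ∀ b v, P (tmulHom φ hφ ρ b v)) (h2 : ∀ x y, P x → P y → P (x + y))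
    (x : (ρ.baseChangeAlong φ hφ).V) : P x := by
  let : Algebra A B := φ.toAlgebra
  exact TensorProduct.induction_on (motive := P) x h0 h1 h2

/-- flatness is preserved by base change -/
theorem isFlatAt_baseChangeAlong {p : ℕ} (hres : Finite (ResidueField B)) (h : ρ.IsFlatAt p) :
    (ρ.baseChangeAlong φ hφ).IsFlatAt p := by
  classical
  rw [isFlatAt_iff] at h ⊢
  refine ⟨hres, fun J hJ => ?_⟩
  have hinj : Function.Injective (Ideal.quotientMap J φ (le_refl (J.comap φ))) :=
    Ideal.quotientMap_injective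
  have hI : Finite (A ⧸ J.comap φ) := Finite.of_injective _ hinj
  cases nonempty_fintype (B ⧸ J)
  have hflat := (h.2 (J.comap φ) hI).pi (B ⧸ J)
  let s : B ⧸ J → B := Function.surjInv (Ideal.Quotient.mk_surjective (I := J))
  have hs : ∀ x, Ideal.Quotient.mk J (s x) = x :=
    Function.surjInv_eq (Ideal.Quotient.mk_surjective (I := J))
  let W := (ρ.baseChangeAlong φ hφ).V
  let JW : Submodule B W := J • ⊤
  let f : ((B ⧸ J) → ρ.V) →+ ((B ⧸ J) → ρ.V ⧸ ((J.comap φ) • (⊤ : Submodule A ρ.V))) :=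
    { toFun := fun v i => Submodule.mkQ ((J.comap φ) • (⊤ : Submodule A ρ.V)) (v i)
      map_zero' := by funext i; exact map_zero _
      map_add' := fun a b => by funext i; exact map_add _ _ _ }
  let q : ((B ⧸ J) → ρ.V) →+ (W ⧸ JW) :=
    { toFun := fun v => Submodule.mkQ JW (∑ i, tmulHom φ hφ ρ (s i) (v i))
      map_zero' := by simp
      map_add' := fun a b => by
        rw [← map_add, ← Finset.sum_add_distrib]
        congr 1
        exact Finset.sum_congr rfl fun i _ => map_add _ _ _ }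
  refine IsFlatModule.of_ker_le (p := p) (N := (B ⧸ J) → ρ.V ⧸ ((J.comap φ) • (⊤ : Submodule A ρ.V)))
    (Q := W ⧸ JW) (actQ := fun σ x => (ρ.baseChangeAlong φ hφ).levelAction J σ x)
    (fun σ v i => ρ.ρ σ (v i)) hflat f q ?_ ?_ ?_ ?_
  · intro x
    obtain ⟨w, rfl⟩ := Submodule.mkQ_surjective JW x
    refine baseChange_induction φ hφ ρ (P := fun w => ∃ a, q a = Submodule.mkQ JW w)
      ⟨0, by rw [map_zero, map_zero]⟩ ?_ ?_ w
    · intro b v
      refine ⟨Pi.single (Ideal.Quotient.mk J b) v, ?_⟩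
      change Submodule.mkQ JW (∑ i, tmulHom φ hφ ρ (s i)
        ((Pi.single (Ideal.Quotient.mk J b) v : (B ⧸ J) → ρ.V) i)) = _
      rw [Finset.sum_eq_single (Ideal.Quotient.mk J b)]
      · rw [Pi.single_eq_same, ← sub_eq_zero, ← map_sub, Submodule.mkQ_apply,
          Submodule.Quotient.mk_eq_zero]
        have h1 : tmulHom φ hφ ρ (s (Ideal.Quotient.mk J b)) v - tmulHom φ hφ ρ b v =
            tmulHom φ hφ ρ (s (Ideal.Quotient.mk J b) - b) v := by
          rw [sub_eq_iff_eq_add, ← tmulHom_add, sub_add_cancel]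
        rw [h1]
        refine tmulHom_mem_of_left φ hφ ρ J ?_ v
        rw [← Ideal.Quotient.eq, hs]
      · intro i _ hi
        rw [Pi.single_eq_of_ne hi, map_zero]
      · intro h; exact absurd (Finset.mem_univ _) h
    · rintro x y ⟨a, ha⟩ ⟨b, hb⟩
      exact ⟨a + b, by rw [map_add, map_add, ha, hb]⟩
  · intro σ v
    rfl
  · intro σ v
    change Submodule.mkQ JW (∑ i, tmulHom φ hφ ρ (s i) (ρ.ρ σ (v i))) =
      (ρ.baseChangeAlong φ hφ).levelAction J σ (Submodule.mkQ JW (∑ i, tmulHom φ hφ ρ (s i) (v i)))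
    rw [levelAction_mkQ]
    congr 1
    rw [map_sum]
    rfl
  · intro v hv
    rw [AddMonoidHom.mem_ker] at hv ⊢
    change Submodule.mkQ JW (∑ i, tmulHom φ hφ ρ (s i) (v i)) = 0
    rw [Submodule.mkQ_apply, Submodule.Quotient.mk_eq_zero]
    refine Submodule.sum_mem _ fun i _ => ?_
    refine tmulHom_mem φ hφ ρ (J.comap φ) J le_rfl _ ?_
    have := congrFun hv i
    rwa [← Submodule.Quotient.mk_eq_zero]

end BaseChange

section Finite

variable (ρ : GaloisRepAdic A) {p : ℕ}

/-- quotients of levels -/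
lemma isFlatModule_of_le {I I' : Ideal A} (hII' : I ≤ I')
    (h : IsFlatModule p (fun σ x => ρ.levelAction I σ x)) :
    IsFlatModule p (fun σ x => ρ.levelAction I' σ x) := by
  have hle : I • (⊤ : Submodule A ρ.V) ≤ I' • ⊤ := Submodule.smul_mono_left hII'
  refine IsFlatModule.of_surjective h (Submodule.factor hle).toAddMonoidHom
    (Submodule.factor_surjective hle) ?_
  intro σ m
  obtain ⟨v, rfl⟩ := Submodule.mkQ_surjective _ m
  rfl

/-- over a finite ring it suffices to look at the whole module -/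
lemma isFlatAt_of_finite [Finite A] (h : IsFlatModule p (fun σ x => ρ.ρ σ x)) :
    ρ.IsFlatAt p := by
  rw [isFlatAt_iff]
  refine ⟨Finite.of_surjective _ (residue_surjective (R := A)), fun I _ => ?_⟩
  refine IsFlatModule.of_surjective h (Submodule.mkQ (I • (⊤ : Submodule A ρ.V))).toAddMonoidHom
    (Submodule.mkQ_surjective _) ?_
  intro σ m
  rfl

lemma isFlatModule_of_isFlatAt [Finite A] (h : ρ.IsFlatAt p) :
    IsFlatModule p (fun σ x => ρ.ρ σ x) := by
  rw [isFlatAt_iff] at h
  have h1 := h.2 ⊥ (Finite.of_surjective _ Ideal.Quotient.mk_surjective)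
  refine h1.of_injective (Submodule.mkQ _).toAddMonoidHom ?_ ?_
  · rw [injective_iff_map_eq_zero]
    intro v hv
    have hv' : Submodule.mkQ ((⊥ : Ideal A) • (⊤ : Submodule A ρ.V)) v = 0 := hv
    rw [Submodule.mkQ_apply, Submodule.Quotient.mk_eq_zero] at hv'
    rwa [Submodule.bot_smul, Submodule.mem_bot] at hv'
  · intro σ m
    rfl

end Finite

section Conditions

lemma repr_eq_zero_of_tmulHom {A B : Type} [CommRing A] [IsLocalRing A] [CommRing B]
    [IsLocalRing B] (φ : A →+* B) (hφ : IsLocalHom φ) (ρ : GaloisRepAdic A)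
    {ι : Type*} (b : Module.Basis ι A ρ.V) {v : ρ.V} (hv : tmulHom φ hφ ρ 1 v = 0) (i : ι) :
    φ (b.repr v i) = 0 := by
  let : Algebra A B := φ.toAlgebra
  have hv' : ((1 : B) ⊗ₜ[A] v : B ⊗[A] ρ.V) = 0 := hv
  have h2 := congrArg (fun w : B ⊗[A] ρ.V => (b.baseChange B).repr w i) hv'
  have h3 : (b.baseChange B).repr ((1 : B) ⊗ₜ[A] v) i = (b.repr v i) • (1 : B) := by
    rw [Module.Basis.baseChange_repr_tmul]
  have h4 : (b.baseChange B).repr (0 : B ⊗[A] ρ.V) i = 0 := by
    rw [map_zero]; rfl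
  have h5 : (b.repr v i) • (1 : B) = 0 := h3.symm.trans (h2.trans h4)
  rw [Algebra.smul_def, mul_one] at h5
  exact h5

lemma tmulHom_one_injective {A B : Type} [CommRing A] [IsLocalRing A] [CommRing B]
    [IsLocalRing B] (φ : A →+* B) (hφ : IsLocalHom φ) (hinj : Function.Injective φ)
    (ρ : GaloisRepAdic A) : Function.Injective (tmulHom φ hφ ρ 1) := by
  let b := Module.Free.chooseBasis A ρ.V
  rw [injective_iff_map_eq_zero]
  intro v hv
  have h1 : ∀ i, b.repr v i = 0 := fun i =>
    hinj ((repr_eq_zero_of_tmulHom φ hφ ρ b hv i).trans (map_zero φ).symm)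
  exact (LinearEquiv.map_eq_zero_iff b.repr).mp (Finsupp.ext h1)

lemma tmulHom_one_act {A B : Type} [CommRing A] [IsLocalRing A] [CommRing B]
    [IsLocalRing B] (φ : A →+* B) (hφ : IsLocalHom φ)
    (ρ : GaloisRepAdic A) (σ : GQ) (v : ρ.V) : tmulHom φ hφ ρ 1 (ρ.ρ σ v) =
      (ρ.baseChangeAlong φ hφ).ρ σ (tmulHom φ hφ ρ 1 v) := rfl

lemma finite_of_isArtinianRing (A : Type) [CommRing A] [IsLocalRing A] [IsArtinianRing A]
    [Finite (ResidueField A)] : Finite A := by
  obtain ⟨n, hn⟩ := IsArtinianRing.isNilpotent_jacobson_bot (R := A)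
  rw [IsLocalRing.jacobson_eq_maximalIdeal ⊥ bot_ne_top] at hn
  have h1 : Finite (A ⧸ maximalIdeal A) := inferInstanceAs (Finite (ResidueField A))
  have h2 : Finite (A ⧸ maximalIdeal A ^ n) :=
    Ideal.finite_quotient_pow (IsNoetherian.noetherian _) n
  rw [hn] at h2
  refine Finite.of_injective (Ideal.Quotient.mk (0 : Ideal A)) ?_
  rw [RingHom.injective_iff_ker_eq_bot, Ideal.mk_ker]
  rfl

variable (𝒪 : Type) [CommRing 𝒪] [IsLocalRing 𝒪]

lemma finite_residueField_base {A : Type} [CommRing A] [IsLocalRing A] [Algebra 𝒪 A]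
    (hA : IsLocalHom (algebraMap 𝒪 A)) (h : Finite (ResidueField A)) :
    Finite (ResidueField 𝒪) :=
  Finite.of_injective (ResidueField.map (algebraMap 𝒪 A)) (RingHom.injective _)

lemma finite_residueField_of_base {A : Type} [CommRing A] [IsLocalRing A] [Algebra 𝒪 A]
    (hA : IsLocalHom (algebraMap 𝒪 A))
    (hsurj : Function.Surjective (residue A ∘ algebraMap 𝒪 A)) (h : Finite (ResidueField 𝒪)) :
    Finite (ResidueField A) := by
  refine Finite.of_surjective (ResidueField.map (algebraMap 𝒪 A)) ?_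
  intro y
  obtain ⟨x, hx⟩ := hsurj y
  exact ⟨residue 𝒪 x, hx⟩

lemma isFlatAt_of_isEquiv {A : Type} [CommRing A] [IsLocalRing A] {p : ℕ}
    {ρ ρ' : GaloisRepAdic A} (h : ρ.IsEquiv ρ') (hρ : ρ.IsFlatAt p) : ρ'.IsFlatAt p := by
  obtain ⟨e⟩ := h
  rw [isFlatAt_iff] at hρ ⊢
  refine ⟨hρ.1, fun I hI => ?_⟩
  refine IsFlatModule.of_ker_le (p := p) (N := ρ.V ⧸ (I • (⊤ : Submodule A ρ.V)))
    (Q := ρ'.V ⧸ (I • (⊤ : Submodule A ρ'.V))) (X := ρ.V)
    (fun σ v => ρ.ρ σ v) (hρ.2 I hI)
    (Submodule.mkQ _).toAddMonoidHom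
    ((Submodule.mkQ _).comp e.toLinearEquiv.toLinearMap).toAddMonoidHom ?_ ?_ ?_ ?_
  · exact (Submodule.mkQ_surjective _).comp e.toLinearEquiv.surjective
  · intro σ v; rfl
  · intro σ v
    change Submodule.mkQ _ (e.toLinearEquiv (ρ.ρ σ v)) = ρ'.levelAction I σ
      (Submodule.mkQ _ (e.toLinearEquiv v))
    rw [levelAction_mkQ, e.map_apply]
  · intro v hv
    rw [AddMonoidHom.mem_ker] at hv ⊢
    have hv' : Submodule.mkQ (I • (⊤ : Submodule A ρ.V)) v = 0 := hv
    change Submodule.mkQ (I • (⊤ : Submodule A ρ'.V)) (e.toLinearEquiv v) = 0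
    rw [Submodule.mkQ_apply, Submodule.Quotient.mk_eq_zero] at hv' ⊢
    have h1 : e.toLinearEquiv v ∈ (I • (⊤ : Submodule A ρ.V)).map e.toLinearEquiv.toLinearMap :=
      ⟨v, hv', rfl⟩
    rw [Submodule.map_smul''] at h1
    exact Submodule.smul_mono le_rfl le_top h1

/-- Flatness at `p` is a deformation condition. -/
theorem isDeformationCondition_isFlatAt (p : ℕ) :
    GaloisRep.IsDeformationCondition 𝒪 (fun _A _ _ _ ρ => ρ.IsFlatAt p) where
  of_isEquiv := fun A _ _ _ _ ρ ρ' h hρ => isFlatAt_of_isEquiv h hρ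
  baseChangeAlong := by
    intro A B _ _ _ _ _ _ hA hB φ hφ ρ hρ
    refine isFlatAt_baseChangeAlong _ hφ ρ ?_ hρ
    exact finite_residueField_of_base 𝒪 hB.isLocalHom hB.residue_surjective
      (finite_residueField_base 𝒪 hA.isLocalHom hρ.1)
  of_baseChangeAlong_injective := by
    intro A B _ _ _ _ _ _ hA hB φ hφ hinj ρ hρ
    have hfB := hρ.1
    have := hA.isArtinian
    have := hB.isArtinian
    have hfA : Finite (ResidueField A) :=
      finite_residueField_of_base 𝒪 hA.isLocalHom hA.residue_surjective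
      (finite_residueField_base 𝒪 hB.isLocalHom hρ.1)
    have := finite_of_isArtinianRing A
    have := finite_of_isArtinianRing B
    apply isFlatAt_of_finite
    refine (isFlatModule_of_isFlatAt _ hρ).of_injective (tmulHom (φ : A →+* B) hφ ρ 1) ?_ ?_
    · exact tmulHom_one_injective _ hφ hinj ρ
    · intro σ m; rfl
  of_fibreProduct := by
    intro A B C P _ _ _ _ _ _ _ _ _ _ _ _ hA hB hC hP f g pA pB hpA hpB _ hinj _ ρ hρA hρB
    have := hP.isArtinian
    have := hA.isArtinian
    have := hB.isArtinian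
    have hfP : Finite (ResidueField P) :=
      finite_residueField_of_base 𝒪 hP.isLocalHom hP.residue_surjective
      (finite_residueField_base 𝒪 hA.isLocalHom hρA.1)
    have := hρA.1
    have := hρB.1
    have := finite_of_isArtinianRing A
    have := finite_of_isArtinianRing B
    have := finite_of_isArtinianRing P
    apply isFlatAt_of_finite
    have h1 := isFlatModule_of_isFlatAt _ hρA
    have h2 := isFlatModule_of_isFlatAt _ hρB
    refine (h1.prod h2).of_injective ((tmulHom (pA : P →+* A) hpA ρ 1).prod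
      (tmulHom (pB : P →+* B) hpB ρ 1)) ?_ ?_
    · rw [injective_iff_map_eq_zero]
      intro v hv
      have hvA : tmulHom (pA : P →+* A) hpA ρ 1 v = 0 := congrArg Prod.fst hv
      have hvB : tmulHom (pB : P →+* B) hpB ρ 1 v = 0 := congrArg Prod.snd hv
      let b := Module.Free.chooseBasis P ρ.V
      have h3 : ∀ i, b.repr v i = 0 := by
        intro i
        apply hinj
        exact Prod.ext ((repr_eq_zero_of_tmulHom _ hpA ρ b hvA i).trans (map_zero pA).symm)
          ((repr_eq_zero_of_tmulHom _ hpB ρ b hvB i).trans (map_zero pB).symm)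
      exact (LinearEquiv.map_eq_zero_iff b.repr).mp (Finsupp.ext h3)
    · intro σ m; rfl
  iff_forall_surjective := by
    intro A _ _ _ _ _ hloc hsurj ρ
    constructor
    · intro hρ B _ _ _ hB q hq _
      refine isFlatAt_baseChangeAlong _ hq ρ ?_ hρ
      exact finite_residueField_of_base 𝒪 hB.isLocalHom hB.residue_surjective
        (finite_residueField_base 𝒪 hloc hρ.1)
    · intro h
      have key : ∀ I : Ideal A, I ≠ ⊤ → (IsArtinianRing (A ⧸ I)) →
          Finite (ResidueField 𝒪) ∧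
          (Finite (A ⧸ I) → IsFlatModule p (fun σ x => ρ.levelAction I σ x)) := by
        intro I hI hart
        have : Nontrivial (A ⧸ I) := Ideal.Quotient.nontrivial_iff.mpr hI
        have hloc' : IsLocalRing (A ⧸ I) :=
          IsLocalRing.of_surjective' (Ideal.Quotient.mk I) Ideal.Quotient.mk_surjective
        have hq : IsLocalHom (Ideal.Quotient.mk I) :=
          IsLocalHom.of_surjective _ Ideal.Quotient.mk_surjective
        have hloc'' : IsLocalHom (algebraMap 𝒪 (A ⧸ I)) := by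
          have : algebraMap 𝒪 (A ⧸ I) = (Ideal.Quotient.mk I).comp (algebraMap 𝒪 A) := rfl
          rw [this]
          exact RingHom.isLocalHom_comp _ _
        have htest : GaloisRep.IsArtinianTestAlgebra 𝒪 (A ⧸ I) := by
          refine ⟨hloc'', ?_, hart⟩
          intro y
          obtain ⟨z, rfl⟩ := residue_surjective y
          obtain ⟨w, rfl⟩ := Ideal.Quotient.mk_surjective z
          obtain ⟨x, hx⟩ := hsurj (residue A w)
          refine ⟨x, ?_⟩
          change residue (A ⧸ I) (Ideal.Quotient.mk I (algebraMap 𝒪 A x)) = _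
          rw [← sub_eq_zero, ← map_sub, ← map_sub, residue_eq_zero_iff]
          have h2 : algebraMap 𝒪 A x - w ∈ maximalIdeal A := by
            rw [← residue_eq_zero_iff, map_sub, sub_eq_zero]
            exact hx
          exact map_nonunit (Ideal.Quotient.mk I) _ h2
        have h1 := h htest (Ideal.Quotient.mkₐ 𝒪 I) hq (Ideal.Quotient.mkₐ_surjective 𝒪 I)
        have hfin𝒪 := finite_residueField_base 𝒪 hloc'' h1.1
        refine ⟨hfin𝒪, fun hfin => ?_⟩
        have h2 := isFlatModule_of_isFlatAt _ h1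
        refine IsFlatModule.of_ker_le (p := p) (Q := ρ.V ⧸ (I • (⊤ : Submodule A ρ.V))) (X := ρ.V)
          (fun σ v => ρ.ρ σ v) h2 (tmulHom (Ideal.Quotient.mk I) hq ρ 1)
          (Submodule.mkQ _).toAddMonoidHom (Submodule.mkQ_surjective _) (fun σ v => rfl)
          (fun σ v => rfl) ?_
        intro v hv
        rw [AddMonoidHom.mem_ker] at hv ⊢
        change Submodule.mkQ (I • (⊤ : Submodule A ρ.V)) v = 0
        rw [Submodule.mkQ_apply, Submodule.Quotient.mk_eq_zero]
        let b := Module.Free.chooseBasis A ρ.V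
        rw [← b.sum_repr v]
        refine Submodule.sum_mem _ fun i _ => Submodule.smul_mem_smul ?_ Submodule.mem_top
        exact Ideal.Quotient.eq_zero_iff_mem.mp (repr_eq_zero_of_tmulHom _ hq ρ b hv i)
      have hm : IsArtinianRing (A ⧸ maximalIdeal A) :=
        inferInstanceAs (IsArtinianRing (ResidueField A))
      have h0 := key (maximalIdeal A) (Ideal.IsMaximal.ne_top inferInstance) hm
      have hfinA := finite_residueField_of_base 𝒪 hloc hsurj h0.1
      rw [isFlatAt_iff]
      refine ⟨hfinA, fun I hI => ?_⟩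
      by_cases htop : I = ⊤
      · subst htop
        exact isFlatModule_of_le ρ le_top (h0.2 hfinA)
      · exact (key I htop inferInstance).2 hI

end Conditions

end Fermat.Agent.FlatGS
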