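import Fermat.Agent.FlatGS.Converse

/-!
# Closure properties of finite flat Galois modules

`IsFlatModule` is stable under Galois stable subgroups, quotients, and finite products.
-/

set_option autoImplicit false

open scoped TensorProduct

namespace Fermat.Agent.FlatGS

variable {p : ℕ} {M M' : Type} [AddCommGroup M] [AddCommGroup M'] {act : GQ → M → M}
  {act' : GQ → M' → M'}

/-- Galois stable subgroups of finite flat modules are finite flat. -/
theorem IsFlatModule.of_injective (h : IsFlatModule p act) (i : M' →+ M)
    (hi : Function.Injective i) (hact : ∀ σ m, i (act' σ m) = act σ (i m)) :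
    IsFlatModule p act' := by
  obtain ⟨hfinM, B, hB⟩ := h.exists_model
  have : Finite M' := Finite.of_injective i hi
  have hM : IsModel p act' (B.map (pull p i)) := by
    refine ⟨?_, ?_, ?_, ?_⟩
    · have := hB.fin
      exact Module.Finite.map B.toSubmodule (pull p i).toLinearMap
    · rintro _ ⟨b, hb, rfl⟩ σ m
      change b (i (act' σ m)) = σ (b (i m))
      rw [hact, hB.equivariant b hb]
    · intro m m' hmm
      apply hi
      apply hB.sep
      intro b hb
      exact hmm _ ⟨b, hb, rfl⟩
    · rintro _ ⟨_, ⟨b, hb, rfl⟩, rfl⟩
      rw [Subalgebra.map_map, Subalgebra.map_map]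
      have h1 := hB.comul_pull (fun x : M' × M' => i x.1) (fun x : M' × M' => i x.2) hb
      have h2 : (fun x : M' × M' => b (i x.1 + i x.2)) =
          pull p (fun x : M' × M' => x.1 + x.2) (pull p i b) := by
        funext x
        change b (i x.1 + i x.2) = b (i (x.1 + x.2))
        rw [map_add]
      rw [h2] at h1
      exact h1
  exact hM.isFlatModule

/-- invariance under equivariant isomorphism -/
theorem IsFlatModule.of_equiv (h : IsFlatModule p act) (i : M' ≃+ M)
    (hact : ∀ σ m, i (act' σ m) = act σ (i m)) : IsFlatModule p act' :=
  h.of_injective i.toAddMonoidHom i.injective hact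

/-- products -/
theorem IsFlatModule.prod (h : IsFlatModule p act) (h' : IsFlatModule p act') :
    IsFlatModule p (M := M × M') (fun σ x => (act σ x.1, act' σ x.2)) := by
  obtain ⟨hfinM, B, hB⟩ := h.exists_model
  obtain ⟨hfinM', B', hB'⟩ := h'.exists_model
  have hM : IsModel p (M := M × M') (fun σ x => (act σ x.1, act' σ x.2))
      (B.map (pull p (Prod.fst : M × M' → M)) ⊔ B'.map (pull p (Prod.snd : M × M' → M'))) := by
    have hle1 : B.map (pull p (Prod.fst : M × M' → M)) ≤
      B.map (pull p (Prod.fst : M × M' → M)) ⊔ B'.map (pull p (Prod.snd : M × M' → M')) :=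
      le_sup_left
    have hle2 : B'.map (pull p (Prod.snd : M × M' → M')) ≤
      B.map (pull p (Prod.fst : M × M' → M)) ⊔ B'.map (pull p (Prod.snd : M × M' → M')) :=
      le_sup_right
    refine ⟨?_, ?_, ?_, ?_⟩
    · have := hB.fin
      have := hB'.fin
      rw [← mu_range]
      exact Module.Finite.range (mu B B').toLinearMap
    · intro b hb σ x
      rw [← mu_range] at hb
      obtain ⟨u, rfl⟩ := hb
      change mu B B' u (act σ x.1, act' σ x.2) = σ (mu B B' u x)
      induction u using TensorProduct.induction_on with
      | zero => rw [map_zero, Pi.zero_apply, Pi.zero_apply, map_zero]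
      | tmul a b => rw [mu_tmul, mu_tmul, hB.equivariant _ a.2, hB'.equivariant _ b.2, map_mul]
      | add a b ha hb => rw [map_add, Pi.add_apply, Pi.add_apply, ha, hb, map_add]
    · intro m m' hmm
      apply Prod.ext
      · apply hB.sep
        intro b hb
        exact hmm _ (hle1 ⟨b, hb, rfl⟩)
      · apply hB'.sep
        intro b hb
        exact hmm _ (hle2 ⟨b, hb, rfl⟩)
    · rw [Algebra.map_sup, sup_le_iff]
      constructor
      · rintro _ ⟨_, ⟨b, hb, rfl⟩, rfl⟩
        have h1 := hB.comul_pull (fun x : (M × M') × (M × M') => x.1.1)
          (fun x : (M × M') × (M × M') => x.2.1) hb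
        have h2 : B.map (pull p (fun x : (M × M') × (M × M') => x.1.1)) ≤
            (B.map (pull p (Prod.fst : M × M' → M)) ⊔
              B'.map (pull p (Prod.snd : M × M' → M'))).map
              (pull p (Prod.fst : (M × M') × (M × M') → M × M')) := by
          refine le_trans ?_ (Subalgebra.map_mono hle1)
          rw [Subalgebra.map_map]
          exact le_rfl
        have h3 : B.map (pull p (fun x : (M × M') × (M × M') => x.2.1)) ≤
            (B.map (pull p (Prod.fst : M × M' → M)) ⊔
              B'.map (pull p (Prod.snd : M × M' → M'))).map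
              (pull p (Prod.snd : (M × M') × (M × M') → M × M')) := by
          refine le_trans ?_ (Subalgebra.map_mono hle1)
          rw [Subalgebra.map_map]
          exact le_rfl
        exact sup_le_sup h2 h3 h1
      · rintro _ ⟨_, ⟨b, hb, rfl⟩, rfl⟩
        have h1 := hB'.comul_pull (fun x : (M × M') × (M × M') => x.1.2)
          (fun x : (M × M') × (M × M') => x.2.2) hb
        have h2 : B'.map (pull p (fun x : (M × M') × (M × M') => x.1.2)) ≤
            (B.map (pull p (Prod.fst : M × M' → M)) ⊔
              B'.map (pull p (Prod.snd : M × M' → M'))).map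
              (pull p (Prod.fst : (M × M') × (M × M') → M × M')) := by
          refine le_trans ?_ (Subalgebra.map_mono hle2)
          rw [Subalgebra.map_map]
          exact le_rfl
        have h3 : B'.map (pull p (fun x : (M × M') × (M × M') => x.2.2)) ≤
            (B.map (pull p (Prod.fst : M × M' → M)) ⊔
              B'.map (pull p (Prod.snd : M × M' → M'))).map
              (pull p (Prod.snd : (M × M') × (M × M') → M × M')) := by
          refine le_trans ?_ (Subalgebra.map_mono hle2)
          rw [Subalgebra.map_map]
          exact le_rfl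
        exact sup_le_sup h2 h3 h1
  exact hM.isFlatModule

end Fermat.Agent.FlatGS
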