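import Mathlib
import Fermat.Prelude.Def_GaloisRep_Flat
import Fermat.Agent.Frob.Exists

/-!
# The coefficient ring `ℤ_(p)` and Galois descent of linear independence

Facts on `GaloisRep.ratLocalizedAt p` : it is a principal ideal domain with fraction field `ℚ`.
Galois descent: equivariant `ℚ̄`-valued functions which are linearly independent over `ℤ_(p)` are
linearly independent over `ℚ̄`.
-/

set_option autoImplicit false

namespace Fermat.Agent.FlatGS

/-- The algebraic closure of `ℚ`. -/
abbrev Om : Type := AlgebraicClosure ℚ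

/-- The absolute Galois group of `ℚ`. -/
abbrev GQ : Type := AlgebraicClosure ℚ ≃ₐ[ℚ] AlgebraicClosure ℚ

/-- The localisation of `ℤ` at `p`, as a subring of `ℚ`. -/
abbrev Rp (p : ℕ) : Subring ℚ := GaloisRep.ratLocalizedAt p

section Ring

variable {p : ℕ}

lemma mem_Rp_iff {q : ℚ} : q ∈ Rp p ↔ q.den.Coprime p := Iff.rfl

lemma intCast_mem_Rp (n : ℤ) : (n : ℚ) ∈ Rp p := by
  rw [mem_Rp_iff]; simp

lemma inv_den_mem_Rp {q : ℚ} (hq : q ∈ Rp p) : ((q.den : ℚ))⁻¹ ∈ Rp p := by
  rw [mem_Rp_iff] at hq ⊢
  rw [Rat.inv_natCast_den_of_pos q.den_pos]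
  exact hq

lemma exists_nat_mul_mem_Rp (p : ℕ) (q : ℚ) : ∃ n : ℕ, n ≠ 0 ∧ (n : ℚ) * q ∈ Rp p := by
  refine ⟨q.den, q.den_nz, ?_⟩
  rw [mul_comm, Rat.mul_den_eq_num]
  exact intCast_mem_Rp _

instance instIsPrincipalIdealRingRp : IsPrincipalIdealRing (Rp p) where
  principal I := by
    obtain ⟨n, hn⟩ := (IsPrincipalIdealRing.principal (I.comap (Int.castRingHom (Rp p)))).principal
    refine ⟨⟨Int.castRingHom (Rp p) n, ?_⟩⟩
    apply le_antisymm
    · intro x hx
      have hnum : x.1.num ∈ I.comap (Int.castRingHom (Rp p)) := by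
        rw [Ideal.mem_comap]
        have : Int.castRingHom (Rp p) x.1.num = x * (x.1.den : Rp p) := by
          apply Subtype.ext
          simp
        rw [this]
        exact I.mul_mem_right _ hx
      rw [hn] at hnum
      obtain ⟨c, hc⟩ := Submodule.mem_span_singleton.mp hnum
      rw [Submodule.mem_span_singleton]
      refine ⟨(c : Rp p) * ⟨((x.1.den : ℚ))⁻¹, inv_den_mem_Rp x.2⟩, ?_⟩
      apply Subtype.ext
      simp only [smul_eq_mul, eq_intCast]
      push_cast
      have hx' : (x : ℚ) = x.1.num * ((x.1.den : ℚ))⁻¹ := by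
        rw [← div_eq_mul_inv, Rat.num_div_den]
      have h2 : ((x.1.num : ℤ) : ℚ) = (c : ℚ) * (n : ℚ) := by
        rw [← hc]; push_cast; simp
      conv_rhs => rw [hx', h2]
      ring
    · rw [Submodule.span_le, Set.singleton_subset_iff]
      have : n ∈ I.comap (Int.castRingHom (Rp p)) := by
        rw [hn]; exact Submodule.mem_span_singleton_self n
      exact this

instance instIsFractionRingRp : IsFractionRing (Rp p) ℚ := by
  apply IsFractionRing.of_field
  intro z
  refine ⟨⟨z.num, intCast_mem_Rp _⟩, ⟨(z.den : ℤ), intCast_mem_Rp _⟩, ?_⟩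
  change z = (z.num : ℚ) / (((z.den : ℤ)) : ℚ)
  simp [Rat.num_div_den]

instance instIsIntegrallyClosedRp : IsIntegrallyClosed (Rp p) := inferInstance

instance instIsNoetherianRingRp : IsNoetherianRing (Rp p) := inferInstance

lemma Rp_algebraMap_Om (r : Rp p) : algebraMap (Rp p) Om r = algebraMap ℚ Om (r : ℚ) := rfl

instance instScalarTowerRpOm : IsScalarTower (Rp p) ℚ Om := inferInstance

lemma Rp_algebraMap_Om_injective : Function.Injective (algebraMap (Rp p) Om) := by
  intro a b h
  rw [Rp_algebraMap_Om, Rp_algebraMap_Om] at h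
  exact Subtype.ext ((algebraMap ℚ Om).injective h)

instance instFaithfulRpOm : FaithfulSMul (Rp p) Om :=
  (faithfulSMul_iff_algebraMap_injective _ _).mpr Rp_algebraMap_Om_injective

end Ring

section Descent

/-- A `ℚ̄`-valued function on a set with Galois action is equivariant. -/
def Equivariant {X : Type*} (act : GQ → X → X) (f : X → Om) : Prop :=
  ∀ (σ : GQ) (x : X), f (act σ x) = σ (f x)

instance instIsGaloisOm : IsGalois ℚ Om := Fermat.Agent.Frob.isGaloisQbar

lemma fixed_mem_range {c : Om} (h : ∀ σ : GQ, σ c = c) : ∃ q : ℚ, algebraMap ℚ Om q = c :=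
  (InfiniteGalois.mem_range_algebraMap_iff_fixed c).mpr h

/-- Galois descent of linear independence, over `ℚ`. -/
theorem linearIndependent_of_equivariant {X : Type*} (act : GQ → X → X)
    (hact : ∀ σ, Function.Surjective (act σ)) {ι : Type*} (f : ι → X → Om)
    (hf : ∀ i, Equivariant act (f i)) (hli : LinearIndependent ℚ f) : LinearIndependent Om f := by
  classical
  rw [linearIndependent_iff'] at hli ⊢
  intro s
  induction s using Finset.strongInduction with
  | H s ih =>
    intro c hc j hj
    by_contra hne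
    -- normalise
    set d : ι → Om := fun i => (c j)⁻¹ * c i with hd
    have hdj : d j = 1 := by simp [hd, hne]
    have hdsum : ∑ i ∈ s, d i • f i = 0 := by
      have : ∑ i ∈ s, d i • f i = (c j)⁻¹ • ∑ i ∈ s, c i • f i := by
        rw [Finset.smul_sum]
        refine Finset.sum_congr rfl fun i _ => ?_
        simp [hd, smul_smul]
      rw [this, hc, smul_zero]
    have hfix : ∀ i ∈ s, ∀ σ : GQ, σ (d i) = d i := by
      intro i hi σ
      have hσ : ∑ i ∈ s, (σ (d i)) • f i = 0 := by
        funext x
        obtain ⟨y, rfl⟩ := hact σ x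
        have h1 := congrArg σ (congrFun hdsum y)
        simp only [Finset.sum_apply, Pi.smul_apply, smul_eq_mul, map_sum, map_mul, Pi.zero_apply,
          map_zero] at h1 ⊢
        rw [← h1]
        refine Finset.sum_congr rfl fun i _ => ?_
        rw [hf i σ y]
      have hdiff : ∑ i ∈ s.erase j, (σ (d i) - d i) • f i = 0 := by
        have h2 : ∑ i ∈ s, (σ (d i) - d i) • f i = 0 := by
          simp only [sub_smul, Finset.sum_sub_distrib, hσ, hdsum, sub_zero]
        rw [← Finset.add_sum_erase s _ hj] at h2
        simpa [hdj] using h2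
      rcases eq_or_ne i j with rfl | hij
      · rw [hdj, map_one]
      · exact sub_eq_zero.mp (ih _ (Finset.erase_ssubset hj) _ hdiff i (Finset.mem_erase.mpr ⟨hij, hi⟩))
    choose! q hq using fun i (hi : i ∈ s) => fixed_mem_range (hfix i hi)
    have hqsum : ∑ i ∈ s, q i • f i = 0 := by
      rw [← hdsum]
      refine Finset.sum_congr rfl fun i hi => ?_
      rw [← hq i hi, algebraMap_smul]
    have := hli s q hqsum j hj
    have h3 := hq j hj
    rw [this, hdj, map_zero] at h3
    exact zero_ne_one h3

/-- Galois descent of linear independence, over `ℤ_(p)`. -/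
theorem linearIndependent_of_equivariant_Rp {p : ℕ} {X : Type*} (act : GQ → X → X)
    (hact : ∀ σ, Function.Surjective (act σ)) {ι : Type*} (f : ι → X → Om)
    (hf : ∀ i, Equivariant act (f i)) (hli : LinearIndependent (Rp p) f) :
    LinearIndependent Om f := by
  apply linearIndependent_of_equivariant act hact f hf
  exact (LinearIndependent.iff_fractionRing (Rp p) ℚ).mp hli

end Descent

end Fermat.Agent.FlatGS
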