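import Fermat.Agent.FlatGS.Hopf

/-!
# The model attached to a finite flat group scheme
-/

set_option autoImplicit false

open scoped TensorProduct

namespace Fermat.Agent.FlatGS

variable {p : ℕ} {M : Type} [AddCommGroup M] {act : GQ → M → M}

section

variable {H : Type} [CommRing H] [HopfAlgebra (Rp p) H]
  (e : WithConv (H →ₐ[Rp p] Om) ≃ M)

/-- the evaluation map of a Hopf algebra at its points. -/
noncomputable def evalMap : H →ₐ[Rp p] (M → Om) :=
  AlgHom.pi (R := Rp p) fun m => (e.symm m).ofConv

omit [AddCommGroup M] in
@[simp] lemma evalMap_apply (h : H) (m : M) : evalMap e h m = (e.symm m) h := rfl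

omit [AddCommGroup M] in
lemma evalMap_act (hact : ∀ (σ : GQ) (f g : WithConv (H →ₐ[Rp p] Om)),
      (∀ h : H, g h = σ (f h)) → e g = act σ (e f)) (σ : GQ) (h : H) (m : M) :
    evalMap e h (act σ m) = σ (evalMap e h m) := by
  let g : WithConv (H →ₐ[Rp p] Om) :=
    WithConv.toConv (((σ : Om →ₐ[ℚ] Om).restrictScalars (Rp p)).comp (e.symm m).ofConv)
  have h1 : e g = act σ (e (e.symm m)) := hact σ (e.symm m) g fun h => rfl
  rw [e.apply_symm_apply] at h1
  rw [evalMap_apply, ← h1, e.symm_apply_apply]
  rfl

lemma evalMap_add (hadd : ∀ f g, e (f * g) = e f + e g) (h : H) (m m' : M) :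
    evalMap e h (m + m') =
      Algebra.TensorProduct.productMap (e.symm m).ofConv (e.symm m').ofConv
        (Coalgebra.comul (R := Rp p) h) := by
  have h1 : e.symm (m + m') = e.symm m * e.symm m' := by
    apply e.injective
    rw [hadd, e.apply_symm_apply, e.apply_symm_apply, e.apply_symm_apply]
  rw [evalMap_apply, h1, AlgHom.convMul_apply]
  rfl

end

theorem IsFlatModule.exists_model (h : IsFlatModule p act) :
    Finite M ∧ ∃ B : Subalgebra (Rp p) (M → Om), IsModel p act B := by
  obtain ⟨H, i1, i2, hfin, hflat, hcomm, e, hadd, hact⟩ := h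
  have hF : Function.Injective (fun m : M => ((e.symm m).ofConv : H →* Om)) := by
    intro a b hab
    apply e.symm.injective
    apply WithConv.ext
    apply AlgHom.ext
    intro x
    exact DFunLike.congr_fun hab x
  constructor
  · -- finiteness, by linear independence of characters
    have hli := (linearIndependent_monoidHom H Om).comp _ hF
    obtain ⟨n, s, hs⟩ := Module.Finite.exists_fin (R := Rp p) (M := H)
    have hG : LinearIndependent Om (fun (m : M) (i : Fin n) => (e.symm m) (s i)) := by
      rw [linearIndependent_iff'] at hli ⊢
      intro t c hc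
      apply hli t c
      funext x
      have hx : x ∈ Submodule.span (Rp p) (Set.range s) := hs ▸ Submodule.mem_top
      simp only [Finset.sum_apply, Pi.smul_apply, smul_eq_mul, Pi.zero_apply, Function.comp_apply]
      change ∑ m ∈ t, c m * (e.symm m) x = 0
      induction hx using Submodule.span_induction with
      | mem x hx =>
        obtain ⟨i, rfl⟩ := hx
        have := congrFun hc i
        simpa using this
      | zero => simp
      | add x y _ _ hx hy => simp only [map_add, mul_add, Finset.sum_add_distrib, hx, hy, add_zero]
      | smul r x _ hx =>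
        have : ∀ m, c m * (e.symm m) (r • x) = algebraMap (Rp p) Om r * (c m * (e.symm m) x) := by
          intro m
          rw [map_smul, Algebra.smul_def]
          ring
        simp only [this]
        rw [← Finset.mul_sum, hx, mul_zero]
    exact hG.finite
  · refine ⟨(evalMap e).range, ?_, ?_, ?_, ?_⟩
    · exact Module.Finite.range (evalMap e).toLinearMap
    · rintro _ ⟨h, rfl⟩ σ m
      exact evalMap_act e hact σ h m
    · intro m m' hmm
      apply hF
      apply MonoidHom.ext
      intro x
      exact hmm _ ⟨x, rfl⟩
    · rintro _ ⟨_, ⟨h, rfl⟩, rfl⟩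
      have hr : (Algebra.TensorProduct.productMap ((pull p (Prod.fst : M × M → M)).comp (evalMap e))
        ((pull p (Prod.snd : M × M → M)).comp (evalMap e))).range =
        (evalMap e).range.map (pull p (Prod.fst : M × M → M)) ⊔
          (evalMap e).range.map (pull p (Prod.snd : M × M → M)) := by
        rw [Algebra.TensorProduct.productMap_range, AlgHom.range_comp, AlgHom.range_comp]
      rw [← hr]
      refine ⟨Coalgebra.comul (R := Rp p) h, ?_⟩
      funext ⟨m, m'⟩
      change (Algebra.TensorProduct.productMap ((pull p (Prod.fst : M × M → M)).comp (evalMap e))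
        ((pull p (Prod.snd : M × M → M)).comp (evalMap e)))
          (Coalgebra.comul (R := Rp p) h) (m, m') = evalMap e h (m + m')
      rw [evalMap_add e hadd]
      generalize (Coalgebra.comul (R := Rp p) h) = u
      induction u using TensorProduct.induction_on with
      | zero => rw [map_zero, map_zero]; rfl
      | tmul a b => rfl
      | add a b ha hb => rw [map_add, map_add, ← ha, ← hb]; rfl

end Fermat.Agent.FlatGS
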