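import Fermat.Agent.FlatGS.Model

/-!
# The Hopf algebra attached to a model
-/

set_option autoImplicit false

open scoped TensorProduct

namespace Fermat.Agent.FlatGS

variable {p : ℕ}

/-- `M` with the action `act` of `G_ℚ` is (the group of `ℚ̄`-points of) a finite flat commutative
group scheme over `ℤ_(p)`. The shape is the one of `GaloisRepAdic.IsFlatAt`. -/
def IsFlatModule (p : ℕ) {M : Type} [AddCommGroup M] (act : GQ → M → M) : Prop :=
  ∃ (H : Type) (_ : CommRing H) (_ : HopfAlgebra (GaloisRep.ratLocalizedAt p) H),
      Module.Finite (GaloisRep.ratLocalizedAt p) H ∧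
      Module.Flat (GaloisRep.ratLocalizedAt p) H ∧
      Coalgebra.IsCocomm (GaloisRep.ratLocalizedAt p) H ∧
      ∃ e : WithConv (H →ₐ[GaloisRep.ratLocalizedAt p] AlgebraicClosure ℚ) ≃ M,
        (∀ f g : WithConv (H →ₐ[GaloisRep.ratLocalizedAt p] AlgebraicClosure ℚ),
          e (f * g) = e f + e g) ∧
        ∀ (σ : AlgebraicClosure ℚ ≃ₐ[ℚ] AlgebraicClosure ℚ)
          (f g : WithConv (H →ₐ[GaloisRep.ratLocalizedAt p] AlgebraicClosure ℚ)),
          (∀ h : H, g h = σ (f h)) → e g = act σ (e f)

namespace IsModel

variable {M : Type} [AddCommGroup M] {act : GQ → M → M} {B : Subalgebra (Rp p) (M → Om)}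

/-- the evaluation at a pair of points -/
noncomputable def ev2 (B : Subalgebra (Rp p) (M → Om)) (x y : M) : B ⊗[Rp p] B →ₐ[Rp p] Om :=
  Algebra.TensorProduct.productMap (ev B x) (ev B y)

/-- the evaluation at a triple of points -/
noncomputable def ev3 (B : Subalgebra (Rp p) (M → Om)) (x y z : M) :
    B ⊗[Rp p] (B ⊗[Rp p] B) →ₐ[Rp p] Om :=
  Algebra.TensorProduct.productMap (ev B x) (ev2 B y z)

omit [AddCommGroup M] in
lemma mu_apply (u : B ⊗[Rp p] B) (x y : M) : mu B B u (x, y) = ev2 B x y u := by
  induction u using TensorProduct.induction_on with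
  | zero => simp
  | tmul a b => rfl
  | add a b ha hb => rw [map_add, map_add, Pi.add_apply, ha, hb]

lemma ev2_ext (h : IsModel p act B) {u v : B ⊗[Rp p] B} (huv : ∀ x y, ev2 B x y u = ev2 B x y v) :
    u = v := by
  have := h.fin
  apply mu_injective h.act_surjective h.act_surjective B h.equivariant B h.equivariant
  funext ⟨x, y⟩
  rw [mu_apply, mu_apply, huv]

lemma ev3_ext (h : IsModel p act B) {u v : B ⊗[Rp p] (B ⊗[Rp p] B)}
    (huv : ∀ x y z, ev3 B x y z u = ev3 B x y z v) : u = v := by
  have := h.fin
  let b := Module.Free.chooseBasis (Rp p) B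
  have hb := li_basis h.act_surjective B h.equivariant b b.linearIndependent
  have hbb := linearIndependent_tensor hb (linearIndependent_tensor hb hb)
  let F : B ⊗[Rp p] (B ⊗[Rp p] B) →ₗ[Rp p] (M × M × M → Om) :=
    LinearMap.pi fun xyz => (ev3 B xyz.1 xyz.2.1 xyz.2.2).toLinearMap
  have hF : Function.Injective F := by
    refine injective_of_basis (b.tensorProduct (b.tensorProduct b)) F ?_
    refine li_restrict ?_
    convert hbb using 2 with ijk
    rw [Module.Basis.tensorProduct_apply, Module.Basis.tensorProduct_apply]
    rfl
  apply hF
  funext ⟨x, y, z⟩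
  exact huv x y z

/-- translation map `B → Fun(M × M)` -/
noncomputable def delta (B : Subalgebra (Rp p) (M → Om)) : B →ₐ[Rp p] (M × M → Om) :=
  (pull p (fun x : M × M => x.1 + x.2)).comp B.val

lemma delta_mem_range (h : IsModel p act B) (b : B) : delta B b ∈ (mu B B).range := by
  rw [mu_range]
  exact h.comul ⟨b, b.2, rfl⟩

/-- comultiplication -/
noncomputable def comulHom (h : IsModel p act B) : B →ₐ[Rp p] B ⊗[Rp p] B :=
  have := h.fin
  (AlgEquiv.ofInjective (mu B B) (mu_injective h.act_surjective h.act_surjective B h.equivariant
    B h.equivariant)).symm.toAlgHom.comp ((delta B).codRestrict (mu B B).range h.delta_mem_range)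

lemma ev2_comulHom (h : IsModel p act B) (x y : M) (b : B) :
    ev2 B x y (h.comulHom b) = (b : M → Om) (x + y) := by
  rw [← mu_apply]
  have h1 : mu B B (h.comulHom b) = delta B b := by
    have := h.fin
    have h2 := AlgEquiv.apply_symm_apply (AlgEquiv.ofInjective (mu B B)
      (mu_injective h.act_surjective h.act_surjective B h.equivariant B h.equivariant))
      ((delta B).codRestrict (mu B B).range h.delta_mem_range b)
    exact congrArg Subtype.val h2
  rw [h1]
  rfl

/-- counit -/
noncomputable def counitHom (h : IsModel p act B) : B →ₐ[Rp p] Rp p :=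
  (Algebra.botEquivOfInjective (R := Rp p) (A := Om) Rp_algebraMap_Om_injective).toAlgHom.comp
    ((ev B 0).codRestrict ⊥ fun b => by
      obtain ⟨r, hr⟩ := h.apply_zero_mem b.2
      exact Algebra.mem_bot.mpr ⟨r, hr⟩)

lemma algebraMap_counitHom (h : IsModel p act B) (b : B) :
    algebraMap (Rp p) Om (h.counitHom b) = (b : M → Om) 0 := by
  obtain ⟨r, hr⟩ := h.apply_zero_mem b.2
  have h1 : (⟨ev B 0 b, Algebra.mem_bot.mpr ⟨r, hr⟩⟩ : (⊥ : Subalgebra (Rp p) Om)) =
      algebraMap (Rp p) _ r := Subtype.ext hr.symm
  have h2 : h.counitHom b = r := by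
    change Algebra.botEquivOfInjective (R := Rp p) (A := Om) Rp_algebraMap_Om_injective
      (⟨ev B 0 b, _⟩ : (⊥ : Subalgebra (Rp p) Om)) = r
    rw [h1]
    exact (Algebra.botEquivOfInjective (R := Rp p) (A := Om) Rp_algebraMap_Om_injective).commutes r
  rw [h2, hr]

/-- antipode -/
noncomputable def antipodeHom (h : IsModel p act B) [Finite M] : B →ₐ[Rp p] B :=
  ((pull p (fun m : M => -m)).comp B.val).codRestrict B fun b => h.pull_neg b.2

lemma antipodeHom_apply (h : IsModel p act B) [Finite M] (b : B) (m : M) :
    (h.antipodeHom b : M → Om) m = (b : M → Om) (-m) := rfl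

/-- the bialgebra structure -/
noncomputable abbrev bialgebra (h : IsModel p act B) : Bialgebra (Rp p) B :=
  Bialgebra.ofAlgHom h.comulHom h.counitHom
    (by
      apply AlgHom.ext
      intro b
      apply h.ev3_ext
      intro x y z
      have e1 : (ev3 B x y z).comp ((Algebra.TensorProduct.assoc (Rp p) (Rp p) (Rp p) B B B).toAlgHom.comp
          (Algebra.TensorProduct.map h.comulHom (.id (Rp p) B))) = ev2 B (x + y) z := by
        apply Algebra.TensorProduct.ext
        · apply AlgHom.ext
          intro c
          have : ∀ u : B ⊗[Rp p] B, ev3 B x y z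
              (Algebra.TensorProduct.assoc (Rp p) (Rp p) (Rp p) B B B (u ⊗ₜ 1)) = ev2 B x y u := by
            intro u
            induction u using TensorProduct.induction_on with
            | zero => simp
            | tmul a b => simp [ev3, ev2]
            | add a b ha hb => rw [TensorProduct.add_tmul, map_add, map_add, map_add, ha, hb]
          have h3 := this (h.comulHom c)
          rw [h.ev2_comulHom] at h3
          simpa [ev2] using h3
        · apply AlgHom.ext
          intro c
          simp [ev3, ev2, Algebra.TensorProduct.one_def]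
      have e2 : (ev3 B x y z).comp (Algebra.TensorProduct.map (.id (Rp p) B) h.comulHom) =
          ev2 B x (y + z) := by
        apply Algebra.TensorProduct.ext
        · apply AlgHom.ext
          intro c
          simp [ev3, ev2]
        · apply AlgHom.ext
          intro c
          have h3 := h.ev2_comulHom y z c
          simp only [ev2] at h3
          simp [ev3, ev2, h3]
      have h1 := DFunLike.congr_fun e1 (h.comulHom b)
      have h2 := DFunLike.congr_fun e2 (h.comulHom b)
      rw [h.ev2_comulHom] at h1 h2
      rw [← add_assoc, ← h1] at h2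
      exact h2.symm)
    (by
      apply AlgHom.ext
      intro b
      apply (Algebra.TensorProduct.lid (Rp p) B).injective
      apply Subtype.ext
      funext x
      have e1 : ((Pi.evalAlgHom (Rp p) (fun _ : M => Om) x).comp B.val).comp
          ((Algebra.TensorProduct.lid (Rp p) B).toAlgHom.comp
            (Algebra.TensorProduct.map h.counitHom (.id (Rp p) B))) = ev2 B 0 x := by
        apply Algebra.TensorProduct.ext
        · apply AlgHom.ext
          intro c
          simp [ev2, ← h.algebraMap_counitHom, Algebra.algebraMap_eq_smul_one]
        · apply AlgHom.ext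
          intro c
          simp [ev2]
      have h1 := DFunLike.congr_fun e1 (h.comulHom b)
      rw [h.ev2_comulHom, zero_add] at h1
      simpa using h1)
    (by
      apply AlgHom.ext
      intro b
      apply (Algebra.TensorProduct.rid (Rp p) (Rp p) B).injective
      apply Subtype.ext
      funext x
      have e1 : ((Pi.evalAlgHom (Rp p) (fun _ : M => Om) x).comp B.val).comp
          ((Algebra.TensorProduct.rid (Rp p) (Rp p) B).toAlgHom.comp
            (Algebra.TensorProduct.map (.id (Rp p) B) h.counitHom)) = ev2 B x 0 := by
        apply Algebra.TensorProduct.ext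
        · apply AlgHom.ext
          intro c
          simp [ev2]
        · apply AlgHom.ext
          intro c
          simp [ev2, ← h.algebraMap_counitHom, Algebra.algebraMap_eq_smul_one]
      have h1 := DFunLike.congr_fun e1 (h.comulHom b)
      rw [h.ev2_comulHom, add_zero] at h1
      simpa using h1)

/-- the Hopf algebra structure -/
noncomputable abbrev hopf (h : IsModel p act B) [Finite M] : HopfAlgebra (Rp p) B :=
  letI := h.bialgebra
  HopfAlgebra.ofAlgHom h.antipodeHom
    (by
      apply AlgHom.ext
      intro b
      apply Subtype.ext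
      funext x
      have e1 : ((Pi.evalAlgHom (Rp p) (fun _ : M => Om) x).comp B.val).comp
          (Algebra.TensorProduct.lift h.antipodeHom (.id (Rp p) B) fun _ ↦ Commute.all _) =
          ev2 B (-x) x := by
        apply Algebra.TensorProduct.ext
        · apply AlgHom.ext
          intro c
          simp [ev2, h.antipodeHom_apply]
        · apply AlgHom.ext
          intro c
          simp [ev2]
      have h1 := DFunLike.congr_fun e1 (h.comulHom b)
      rw [h.ev2_comulHom, neg_add_cancel, ← h.algebraMap_counitHom] at h1
      exact h1)
    (by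
      apply AlgHom.ext
      intro b
      apply Subtype.ext
      funext x
      have e1 : ((Pi.evalAlgHom (Rp p) (fun _ : M => Om) x).comp B.val).comp
          (Algebra.TensorProduct.lift (.id (Rp p) B) h.antipodeHom fun _ _ ↦ Commute.all _ _) =
          ev2 B x (-x) := by
        apply Algebra.TensorProduct.ext
        · apply AlgHom.ext
          intro c
          simp [ev2]
        · apply AlgHom.ext
          intro c
          simp [ev2, h.antipodeHom_apply]
      have h1 := DFunLike.congr_fun e1 (h.comulHom b)
      rw [h.ev2_comulHom, add_neg_cancel, ← h.algebraMap_counitHom] at h1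
      exact h1)

lemma ev_injective (h : IsModel p act B) : Function.Injective (ev B) := by
  intro x y hxy
  apply h.sep
  intro b hb
  exact DFunLike.congr_fun hxy ⟨b, hb⟩

/-- every point of `B` is the evaluation at a point of `M` -/
lemma ev_surjective (h : IsModel p act B) [Finite M] : Function.Surjective (ev B) := by
  classical
  have := h.fin
  cases nonempty_fintype M
  intro f
  by_contra hf
  push Not at hf
  -- distinct characters are linearly independent
  let F : Option M → (B →* Om) := fun o => o.elim (f : B →* Om) fun m => (ev B m : B →* Om)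
  have hF : Function.Injective F := by
    intro a b hab
    cases a with
    | none =>
      cases b with
      | none => rfl
      | some m =>
        exact absurd (AlgHom.ext fun x => (DFunLike.congr_fun hab x).symm) (hf m)
    | some m =>
      cases b with
      | none => exact absurd (AlgHom.ext fun x => (DFunLike.congr_fun hab x)) (hf m)
      | some m' =>
        exact congrArg some (h.ev_injective (AlgHom.ext fun x => DFunLike.congr_fun hab x))
  have hli := (linearIndependent_monoidHom B Om).comp F hF
  -- restrict to a basis
  let b := Module.Free.chooseBasis (Rp p) B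
  have hb := li_basis h.act_surjective B h.equivariant b b.linearIndependent
  have hcard : Fintype.card (Module.Free.ChooseBasisIndex (Rp p) B) ≤ Fintype.card M := by
    have := hb.fintype_card_le_finrank
    simpa using this
  have hli2 : LinearIndependent Om (fun (o : Option M)
      (i : Module.Free.ChooseBasisIndex (Rp p) B) => F o (b i)) := by
    rw [Fintype.linearIndependent_iff] at hli ⊢
    intro c hc
    apply hli c
    funext x
    have hx := b.sum_repr x
    have hco : ∀ o, F o x = ∑ i, algebraMap (Rp p) Om (b.repr x i) * F o (b i) := by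
      intro o
      conv_lhs => rw [← hx]
      cases o with
      | none =>
        change f (∑ i, b.repr x i • b i) = _
        rw [map_sum]
        refine Finset.sum_congr rfl fun i _ => ?_
        rw [map_smul, Algebra.smul_def]
        rfl
      | some m =>
        change ev B m (∑ i, b.repr x i • b i) = _
        rw [map_sum]
        refine Finset.sum_congr rfl fun i _ => ?_
        rw [map_smul, Algebra.smul_def]
        rfl
    simp only [Finset.sum_apply, Pi.smul_apply, smul_eq_mul, Pi.zero_apply, Function.comp_apply]
    simp only [hco, Finset.mul_sum]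
    rw [Finset.sum_comm]
    refine Finset.sum_eq_zero fun i _ => ?_
    have h2 := congrFun hc i
    simp only [Finset.sum_apply, Pi.smul_apply, smul_eq_mul, Pi.zero_apply] at h2
    have h3 : ∑ o, c o * (algebraMap (Rp p) Om (b.repr x i) * F o (b i)) =
        algebraMap (Rp p) Om (b.repr x i) * ∑ o, c o * F o (b i) := by
      rw [Finset.mul_sum]
      refine Finset.sum_congr rfl fun o _ => ?_
      ring
    rw [h3, h2, mul_zero]
  have hcard2 := hli2.fintype_card_le_finrank
  simp only [Module.finrank_fintype_fun_eq_card, Fintype.card_option] at hcard2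
  omega

omit [AddCommGroup M] in
lemma ev2_comm (x y : M) (u : B ⊗[Rp p] B) :
    ev2 B x y (TensorProduct.comm (Rp p) B B u) = ev2 B y x u := by
  induction u using TensorProduct.induction_on with
  | zero => simp
  | tmul a b => simp [ev2, mul_comm]
  | add a b ha hb => rw [map_add, map_add, map_add, ha, hb]

/-- the identification of the points of `B` with `M`. -/
noncomputable def pointsEquiv (h : IsModel p act B) [Finite M] : WithConv (B →ₐ[Rp p] Om) ≃ M :=
  (WithConv.equiv _).trans (Equiv.ofBijective (ev B) ⟨h.ev_injective, h.ev_surjective⟩).symm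

lemma ev_pointsEquiv (h : IsModel p act B) [Finite M] (f : WithConv (B →ₐ[Rp p] Om)) :
    ev B (h.pointsEquiv f) = f.ofConv := by
  exact (Equiv.ofBijective (ev B) ⟨h.ev_injective, h.ev_surjective⟩).apply_symm_apply _

/-- A finite Galois module with a model is finite flat. -/
theorem isFlatModule (h : IsModel p act B) [Finite M] : IsFlatModule p act := by
  let i := h.hopf
  refine ⟨B, inferInstance, h.hopf, h.fin, ?_, ⟨?_⟩, ?_⟩
  · have := h.fin
    infer_instance
  · apply LinearMap.ext
    intro b
    apply h.ev2_ext
    intro x y
    change ev2 B x y (TensorProduct.comm (Rp p) B B (h.comulHom b)) = ev2 B x y (h.comulHom b)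
    rw [ev2_comm, h.ev2_comulHom, h.ev2_comulHom, add_comm]
  · refine ⟨h.pointsEquiv, ?_, ?_⟩
    · intro f g
      apply h.ev_injective
      apply AlgHom.ext
      intro b
      rw [h.ev_pointsEquiv]
      change (f * g) b = _
      rw [AlgHom.convMul_apply, ← h.ev_pointsEquiv f, ← h.ev_pointsEquiv g]
      exact h.ev2_comulHom _ _ b
    · intro σ f g hfg
      apply h.ev_injective
      apply AlgHom.ext
      intro b
      rw [h.ev_pointsEquiv]
      have h1 := hfg b
      change g b = _
      rw [h1, ev_apply, h.equivariant _ b.2, ← ev_apply, h.ev_pointsEquiv]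

end IsModel

end Fermat.Agent.FlatGS
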