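import Fermat.Agent.FlatGS.Base

/-!
# Concrete models of finite flat group schemes over `ℤ_(p)`

For a finite abelian group `M` with an action of `G_ℚ`, a *model* is a finite `ℤ_(p)`-algebra of
equivariant functions `M → ℚ̄` which separates the points of `M` and is stable under
comultiplication.
-/

set_option autoImplicit false

open scoped TensorProduct

namespace Fermat.Agent.FlatGS

variable {p : ℕ}

/-- Pullback of `ℚ̄`-valued functions. -/
noncomputable def pull (p : ℕ) {X Y : Type*} (f : X → Y) : (Y → Om) →ₐ[Rp p] (X → Om) where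
  toFun g := g ∘ f
  map_one' := rfl
  map_mul' _ _ := rfl
  map_zero' := rfl
  map_add' _ _ := rfl
  commutes' _ := rfl

@[simp] lemma pull_apply {X Y : Type*} (f : X → Y) (g : Y → Om) (x : X) :
    pull p f g x = g (f x) := rfl

lemma pull_comp_pull {X Y Z : Type*} (f : X → Y) (g : Y → Z) :
    (pull p f).comp (pull p g) = pull p (g ∘ f) := rfl

/-- Evaluation at a point, as a homomorphism of algebras. -/
noncomputable def ev {X : Type*} (B : Subalgebra (Rp p) (X → Om)) (x : X) : B →ₐ[Rp p] Om :=
  (Pi.evalAlgHom (Rp p) (fun _ : X => Om) x).comp B.val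

@[simp] lemma ev_apply {X : Type*} (B : Subalgebra (Rp p) (X → Om)) (x : X) (b : B) :
    ev B x b = (b : X → Om) x := rfl

/-- `B` is a model over `ℤ_(p)` of the Galois module `M`. -/
structure IsModel (p : ℕ) {M : Type*} [AddCommGroup M] (act : GQ → M → M)
    (B : Subalgebra (Rp p) (M → Om)) : Prop where
  fin : Module.Finite (Rp p) B
  equivariant : ∀ b ∈ B, Equivariant act b
  sep : ∀ m m' : M, (∀ b ∈ B, b m = b m') → m = m'
  comul : B.map (pull p (fun x : M × M => x.1 + x.2)) ≤
    B.map (pull p (Prod.fst : M × M → M)) ⊔ B.map (pull p (Prod.snd : M × M → M))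

instance instTorsionFreeOm : Module.IsTorsionFree (Rp p) Om := by
  have : FaithfulSMul (Rp p) Om := instFaithfulRpOm
  infer_instance

instance instTorsionFreeFun {X : Type*} : Module.IsTorsionFree (Rp p) (X → Om) := inferInstance

instance instTorsionFreeSub {X : Type*} (B : Subalgebra (Rp p) (X → Om)) :
    Module.IsTorsionFree (Rp p) B := inferInstance

lemma free_of_finite {X : Type*} (B : Subalgebra (Rp p) (X → Om)) [Module.Finite (Rp p) B] :
    Module.Free (Rp p) B := inferInstance

/-- external products of linearly independent families of functions -/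
lemma linearIndependent_tensor {X Y ι κ : Type*} [Fintype ι] [Fintype κ] {f : ι → X → Om}
    {g : κ → Y → Om} (hf : LinearIndependent Om f) (hg : LinearIndependent Om g) :
    LinearIndependent Om (fun (ij : ι × κ) (xy : X × Y) => f ij.1 xy.1 * g ij.2 xy.2) := by
  rw [Fintype.linearIndependent_iff] at hf hg ⊢
  intro c hc ⟨i, j⟩
  have h1 : ∀ x : X, ∀ j, ∑ i, c (i, j) * f i x = 0 := by
    intro x
    apply hg
    funext y
    have := congrFun hc (x, y)
    simp only [Fintype.sum_prod_type, Finset.sum_apply, Pi.smul_apply, smul_eq_mul,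
      Pi.zero_apply] at this ⊢
    rw [Finset.sum_comm] at this
    rw [← this]
    refine Finset.sum_congr rfl fun j _ => ?_
    rw [Finset.sum_mul]
    refine Finset.sum_congr rfl fun i _ => ?_
    ring
  refine hf (fun i => c (i, j)) ?_ i
  funext x
  simpa using h1 x j

/-- A linear map which sends a basis to a linearly independent family is injective. -/
lemma injective_of_basis {R V W ι : Type*} [CommSemiring R] [AddCommMonoid V] [Module R V]
    [AddCommMonoid W] [Module R W] (b : Module.Basis ι R V) (f : V →ₗ[R] W)
    (h : LinearIndependent R (fun i => f (b i))) : Function.Injective f := by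
  have h1 : ∀ v, f v = Finsupp.linearCombination R (fun i => f (b i)) (b.repr v) := by
    intro v
    conv_lhs => rw [← b.linearCombination_repr v]
    rw [Finsupp.linearCombination_apply, Finsupp.linearCombination_apply, Finsupp.sum, map_sum]
    simp [Finsupp.sum]
  intro v w hvw
  rw [h1, h1] at hvw
  exact b.repr.injective (h hvw)

lemma li_restrict {X ι : Type*} {f : ι → X → Om} (h : LinearIndependent Om f) :
    LinearIndependent (Rp p) f := by
  rw [linearIndependent_iff'] at h ⊢
  intro s g hg i hi
  have := h s (fun i => algebraMap (Rp p) Om (g i)) (by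
    rw [← hg]
    refine Finset.sum_congr rfl fun i _ => ?_
    funext x
    exact (Algebra.smul_def _ _).symm) i hi
  exact Rp_algebraMap_Om_injective (by rw [this, map_zero])

section Tensor

variable {X Y Z : Type*}

/-- the multiplication map `B ⊗ C → Fun(X × Y)` -/
noncomputable def mu (B : Subalgebra (Rp p) (X → Om)) (C : Subalgebra (Rp p) (Y → Om)) :
    B ⊗[Rp p] C →ₐ[Rp p] (X × Y → Om) :=
  Algebra.TensorProduct.productMap ((pull p Prod.fst).comp B.val) ((pull p Prod.snd).comp C.val)

@[simp] lemma mu_tmul (B : Subalgebra (Rp p) (X → Om)) (C : Subalgebra (Rp p) (Y → Om))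
    (b : B) (c : C) (xy : X × Y) :
    mu B C (b ⊗ₜ c) xy = (b : X → Om) xy.1 * (c : Y → Om) xy.2 := rfl

lemma mu_range (B : Subalgebra (Rp p) (X → Om)) (C : Subalgebra (Rp p) (Y → Om)) :
    (mu B C).range = B.map (pull p (Prod.fst : X × Y → X)) ⊔
      C.map (pull p (Prod.snd : X × Y → Y)) := by
  rw [mu, Algebra.TensorProduct.productMap_range, AlgHom.range_comp, AlgHom.range_comp,
    Subalgebra.range_val, Subalgebra.range_val]

/-- the family of functions underlying a basis of an algebra of equivariant functions is
linearly independent over `ℚ̄`. -/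
lemma li_basis {act : GQ → X → X} (hact : ∀ σ, Function.Surjective (act σ))
    (B : Subalgebra (Rp p) (X → Om)) (hB : ∀ b ∈ B, Equivariant act b) {ι : Type*} (v : ι → B)
    (hv : LinearIndependent (Rp p) v) :
    LinearIndependent Om (fun i => (v i : X → Om)) := by
  apply linearIndependent_of_equivariant_Rp (p := p) act hact
  · exact fun i => hB _ (v i).2
  · exact hv.map' B.val.toLinearMap (LinearMap.ker_eq_bot.mpr Subtype.val_injective)

lemma mu_injective {act : GQ → X → X} (hact : ∀ σ, Function.Surjective (act σ))
    {act' : GQ → Y → Y} (hact' : ∀ σ, Function.Surjective (act' σ))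
    (B : Subalgebra (Rp p) (X → Om)) (hB : ∀ b ∈ B, Equivariant act b) [Module.Finite (Rp p) B]
    (C : Subalgebra (Rp p) (Y → Om)) (hC : ∀ b ∈ C, Equivariant act' b) [Module.Finite (Rp p) C] :
    Function.Injective (mu B C) := by
  let b := Module.Free.chooseBasis (Rp p) B
  let c := Module.Free.chooseBasis (Rp p) C
  refine injective_of_basis (b.tensorProduct c) (mu B C).toLinearMap ?_
  have := linearIndependent_tensor (li_basis hact B hB b b.linearIndependent)
    (li_basis hact' C hC c c.linearIndependent)
  refine li_restrict ?_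
  convert this using 2 with ij
  rw [Module.Basis.tensorProduct_apply]
  rfl

end Tensor

namespace IsModel

variable {M : Type*} [AddCommGroup M] {act : GQ → M → M} {B : Subalgebra (Rp p) (M → Om)}

lemma act_act_inv (h : IsModel p act B) (σ : GQ) (m : M) : act σ (act σ⁻¹ m) = m := by
  apply h.sep
  intro b hb
  rw [h.equivariant b hb, h.equivariant b hb]
  exact AlgEquiv.apply_symm_apply σ _

lemma act_surjective (h : IsModel p act B) (σ : GQ) : Function.Surjective (act σ) :=
  fun m => ⟨_, h.act_act_inv σ m⟩

lemma act_inv_act (h : IsModel p act B) (σ : GQ) (m : M) : act σ⁻¹ (act σ m) = m := by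
  conv_lhs => rw [← inv_inv σ]
  simpa using h.act_act_inv σ⁻¹ m

/-- the comultiplication property, pulled back along a map to `M × M`. -/
lemma comul_pull (h : IsModel p act B) {X : Type*} (f g : X → M) {b : M → Om} (hb : b ∈ B) :
    (fun x => b (f x + g x)) ∈ B.map (pull p f) ⊔ B.map (pull p g) := by
  have h1 : pull p (fun x : M × M => x.1 + x.2) b ∈
      B.map (pull p (Prod.fst : M × M → M)) ⊔ B.map (pull p (Prod.snd : M × M → M)) :=
    h.comul ⟨b, hb, rfl⟩
  have h2 : pull p (fun x => (f x, g x)) (pull p (fun x : M × M => x.1 + x.2) b) ∈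
      (B.map (pull p (Prod.fst : M × M → M)) ⊔ B.map (pull p (Prod.snd : M × M → M))).map
        (pull p (fun x => (f x, g x))) := ⟨_, h1, rfl⟩
  rw [Algebra.map_sup, Subalgebra.map_map, Subalgebra.map_map] at h2
  exact h2

/-- the functions on `M` of the form `m ↦ b (σ m)` , `b ∈ B`, form a subalgebra;
elements of `B` pulled back along an equivariant map to itself. -/
lemma act_add (h : IsModel p act B) (σ : GQ) (m m' : M) :
    act σ (m + m') = act σ m + act σ m' := by
  -- the set of functions `F` on `M × M` with `F (act σ x, act σ y) = σ (F (x, y))`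
  let E : Subalgebra (Rp p) (M × M → Om) :=
    { carrier := {F | ∀ x : M × M, F (act σ x.1, act σ x.2) = σ (F x)}
      mul_mem' := by
        intro F G hF hG x
        simp only [Set.mem_ofPred_eq] at hF hG
        rw [Pi.mul_apply, Pi.mul_apply, hF, hG, map_mul]
      add_mem' := by
        intro F G hF hG x
        simp only [Set.mem_ofPred_eq] at hF hG
        rw [Pi.add_apply, Pi.add_apply, hF, hG, map_add]
      algebraMap_mem' := by
        intro r x
        change algebraMap (Rp p) Om r = σ (algebraMap (Rp p) Om r)
        rw [Rp_algebraMap_Om]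
        exact (σ.commutes _).symm }
  have hE : B.map (pull p (Prod.fst : M × M → M)) ⊔ B.map (pull p (Prod.snd : M × M → M)) ≤ E := by
    rw [sup_le_iff]
    constructor
    · rintro _ ⟨b, hb, rfl⟩ x
      exact h.equivariant b hb σ x.1
    · rintro _ ⟨b, hb, rfl⟩ x
      exact h.equivariant b hb σ x.2
  apply h.sep
  intro b hb
  have h1 := hE (h.comul ⟨b, hb, rfl⟩) (m, m')
  have h2 : b (act σ m + act σ m') = σ (b (m + m')) := h1
  rw [h.equivariant b hb, h2]

lemma act_zero (h : IsModel p act B) (σ : GQ) : act σ 0 = 0 := by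
  have := h.act_add σ 0 0
  rw [add_zero] at this
  exact left_eq_add.mp this

/-- values at zero are in `ℤ_(p)` -/
lemma apply_zero_mem (h : IsModel p act B) {b : M → Om} (hb : b ∈ B) :
    ∃ r : Rp p, algebraMap (Rp p) Om r = b 0 := by
  have hfix : ∀ σ : GQ, σ (b 0) = b 0 := by
    intro σ
    rw [← h.equivariant b hb, h.act_zero]
  obtain ⟨q, hq⟩ := fixed_mem_range hfix
  have hint : IsIntegral (Rp p) (b 0) := by
    have := h.fin
    have h1 : IsIntegral (Rp p) (⟨b, hb⟩ : B) := Algebra.IsIntegral.isIntegral _
    exact h1.map (ev B 0)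
  rw [← hq] at hint
  have hint' : IsIntegral (Rp p) q :=
    (isIntegral_algHom_iff (IsScalarTower.toAlgHom (Rp p) ℚ Om)
      (algebraMap ℚ Om).injective).mp hint
  obtain ⟨r, hr⟩ := IsIntegrallyClosed.algebraMap_eq_of_integral hint'
  refine ⟨r, ?_⟩
  rw [Rp_algebraMap_Om, ← hq, ← hr]
  rfl

/-- pulling back along multiplication by `n` preserves `B`. -/
lemma pull_nsmul (h : IsModel p act B) (n : ℕ) {b : M → Om} (hb : b ∈ B) :
    (fun m => b (n • m)) ∈ B := by
  have key : ∀ n : ℕ, B.map (pull p (fun m : M => n • m)) ≤ B := by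
    intro n
    induction n with
    | zero =>
      rintro _ ⟨b, hb, rfl⟩
      obtain ⟨r, hr⟩ := h.apply_zero_mem hb
      have : pull p (fun m : M => (0 : ℕ) • m) b = algebraMap (Rp p) (M → Om) r := by
        funext m
        simp only [pull_apply, zero_smul]
        exact hr.symm
      exact this ▸ B.algebraMap_mem r
    | succ n ih =>
      rintro _ ⟨b, hb, rfl⟩
      have h1 := h.comul_pull (fun m : M => n • m) (fun m : M => m) hb
      have h2 : B.map (pull p (fun m : M => n • m)) ⊔ B.map (pull p (fun m : M => m)) ≤ B := by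
        refine sup_le ih ?_
        rintro _ ⟨c, hc, rfl⟩
        exact hc
      have h3 := h2 h1
      convert h3 using 1
      funext m
      simp [add_smul]
  exact key n ⟨b, hb, rfl⟩

lemma pull_neg (h : IsModel p act B) [Finite M] {b : M → Om} (hb : b ∈ B) :
    (fun m => b (-m)) ∈ B := by
  have h1 := h.pull_nsmul (Nat.card M - 1) hb
  convert h1 using 1
  funext m
  congr 1
  have hpos : 1 ≤ Nat.card M := Nat.card_pos
  have h2 : (Nat.card M - 1 + 1) • m = 0 := by
    rw [Nat.sub_add_cancel hpos]
    exact card_nsmul_eq_zero'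
  rw [add_smul, one_smul] at h2
  exact (eq_neg_of_add_eq_zero_left h2).symm

end IsModel

end Fermat.Agent.FlatGS
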