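import Fermat.Agent.FlatGS.Quotient

/-!
# Finite powers, and subquotients of finite powers, of finite flat modules
-/

set_option autoImplicit false

namespace Fermat.Agent.FlatGS

variable {p : ℕ} {M : Type} [AddCommGroup M] {act : GQ → M → M}

lemma IsFlatModule.act_zero (h : IsFlatModule p act) (σ : GQ) : act σ 0 = 0 := by
  obtain ⟨_, B, hB⟩ := h.exists_model
  exact hB.act_zero σ

lemma IsFlatModule.act_add (h : IsFlatModule p act) (σ : GQ) (x y : M) :
    act σ (x + y) = act σ x + act σ y := by
  obtain ⟨_, B, hB⟩ := h.exists_model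
  exact hB.act_add σ x y

lemma IsFlatModule.finite (h : IsFlatModule p act) : Finite M := h.exists_model.1

/-- finite powers -/
theorem IsFlatModule.pi (h : IsFlatModule p act) (ι : Type) [Finite ι] :
    IsFlatModule p (M := ι → M) (fun σ f i => act σ (f i)) := by
  induction ι using Finite.induction_empty_option with
  | of_equiv e ih =>
    exact ih.of_equiv (AddEquiv.arrowCongr e.symm (AddEquiv.refl M)) (fun σ f => rfl)
  | h_empty =>
    refine h.of_injective (0 : (PEmpty → M) →+ M) ?_ ?_
    · exact Function.injective_of_subsingleton _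
    · intro σ m
      rw [AddMonoidHom.zero_apply, AddMonoidHom.zero_apply, h.act_zero]
  | h_option ih =>
    rename_i α _
    refine (h.prod ih).of_equiv (M' := Option α → M)
      { toFun := fun f => (f none, fun a => f (some a))
        invFun := fun x o => o.elim x.1 x.2
        left_inv := fun f => by
          funext o
          cases o <;> rfl
        right_inv := fun x => rfl
        map_add' := fun f g => rfl } (fun σ f => rfl)

/-- A quotient of a Galois stable subgroup of a finite flat module is finite flat: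
the version with correspondences. `Q` is a quotient of `X`, and `X` maps to `N` with smaller
kernel. -/
theorem IsFlatModule.of_ker_le {N Q X : Type} [AddCommGroup N] [AddCommGroup Q] [AddCommGroup X]
    {actN : GQ → N → N} {actQ : GQ → Q → Q} (actX : GQ → X → X) (h : IsFlatModule p actN)
    (f : X →+ N) (q : X →+ Q) (hq : Function.Surjective q)
    (hfact : ∀ σ x, f (actX σ x) = actN σ (f x)) (hqact : ∀ σ x, q (actX σ x) = actQ σ (q x))
    (hker : f.ker ≤ q.ker) : IsFlatModule p actQ := by
  -- the image of `f`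
  let R : AddSubgroup N := f.range
  have hR : ∀ σ (r : R), actN σ r ∈ R := by
    rintro σ ⟨_, x, rfl⟩
    exact ⟨actX σ x, hfact σ x⟩
  have h1 : IsFlatModule p (M := R) (fun σ r => ⟨actN σ r, hR σ r⟩) :=
    h.of_injective R.subtype Subtype.val_injective (fun σ m => rfl)
  -- the quotient map
  let g : R →+ Q :=
    (QuotientAddGroup.lift f.ker q (fun x hx => hker hx)).comp
      (QuotientAddGroup.quotientKerEquivRange f).symm.toAddMonoidHom
  have hg : ∀ x, g ⟨f x, ⟨x, rfl⟩⟩ = q x := by
    intro x
    have : (QuotientAddGroup.quotientKerEquivRange f).symm ⟨f x, ⟨x, rfl⟩⟩ =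
        QuotientAddGroup.mk x := by
      rw [AddEquiv.symm_apply_eq]
      rfl
    change QuotientAddGroup.lift f.ker q (fun x hx => hker hx)
      ((QuotientAddGroup.quotientKerEquivRange f).symm ⟨f x, ⟨x, rfl⟩⟩) = q x
    rw [this]
    rfl
  refine h1.of_surjective g ?_ ?_
  · intro y
    obtain ⟨x, rfl⟩ := hq y
    exact ⟨_, hg x⟩
  · rintro σ ⟨_, x, rfl⟩
    rw [hg]
    have h2 : (⟨actN σ (f x), hR σ ⟨f x, ⟨x, rfl⟩⟩⟩ : R) = ⟨f (actX σ x), ⟨actX σ x, rfl⟩⟩ :=
      Subtype.ext (hfact σ x).symm
    change g ⟨actN σ (f x), hR σ ⟨f x, ⟨x, rfl⟩⟩⟩ = actQ σ (q x)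
    rw [h2, hg, hqact]

end Fermat.Agent.FlatGS
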