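import Fermat.Agent.FlatGS.Closure

/-!
# Quotients of finite flat Galois modules
-/

set_option autoImplicit false

open scoped TensorProduct

namespace Fermat.Agent.FlatGS

variable {p : ℕ}

/-- a finite algebra of equivariant functions separating the points. -/
structure IsSepAlg (p : ℕ) {X : Type*} (act : GQ → X → X)
    (B : Subalgebra (Rp p) (X → Om)) : Prop where
  fin : Module.Finite (Rp p) B
  equivariant : ∀ b ∈ B, Equivariant act b
  sep : ∀ m m' : X, (∀ b ∈ B, b m = b m') → m = m'

lemma IsModel.isSepAlg {M : Type*} [AddCommGroup M] {act : GQ → M → M}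
    {B : Subalgebra (Rp p) (M → Om)} (h : IsModel p act B) : IsSepAlg p act B :=
  ⟨h.fin, h.equivariant, h.sep⟩

namespace IsSepAlg

variable {X Y : Type*} {act : GQ → X → X} {act' : GQ → Y → Y}
  {B : Subalgebra (Rp p) (X → Om)} {C : Subalgebra (Rp p) (Y → Om)}

lemma act_surjective (h : IsSepAlg p act B) (σ : GQ) : Function.Surjective (act σ) := by
  intro m
  refine ⟨act σ⁻¹ m, ?_⟩
  apply h.sep
  intro b hb
  rw [h.equivariant b hb, h.equivariant b hb]
  exact AlgEquiv.apply_symm_apply σ _

lemma act_injective (h : IsSepAlg p act B) (σ : GQ) : Function.Injective (act σ) := by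
  intro m m' hmm
  apply h.sep
  intro b hb
  have := congrArg b hmm
  rw [h.equivariant b hb, h.equivariant b hb] at this
  exact σ.injective this

lemma prod (h : IsSepAlg p act B) (h' : IsSepAlg p act' C) :
    IsSepAlg p (fun σ (x : X × Y) => (act σ x.1, act' σ x.2))
      (B.map (pull p (Prod.fst : X × Y → X)) ⊔ C.map (pull p (Prod.snd : X × Y → Y))) := by
  have hle1 : B.map (pull p (Prod.fst : X × Y → X)) ≤
    B.map (pull p (Prod.fst : X × Y → X)) ⊔ C.map (pull p (Prod.snd : X × Y → Y)) :=
    le_sup_left
  have hle2 : C.map (pull p (Prod.snd : X × Y → Y)) ≤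
    B.map (pull p (Prod.fst : X × Y → X)) ⊔ C.map (pull p (Prod.snd : X × Y → Y)) :=
    le_sup_right
  refine ⟨?_, ?_, ?_⟩
  · have := h.fin
    have := h'.fin
    rw [← mu_range]
    exact Module.Finite.range (mu B C).toLinearMap
  · intro b hb σ x
    rw [← mu_range] at hb
    obtain ⟨u, rfl⟩ := hb
    change mu B C u (act σ x.1, act' σ x.2) = σ (mu B C u x)
    induction u using TensorProduct.induction_on with
    | zero => rw [map_zero, Pi.zero_apply, Pi.zero_apply, map_zero]
    | tmul a b => rw [mu_tmul, mu_tmul, h.equivariant _ a.2, h'.equivariant _ b.2, map_mul]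
    | add a b ha hb => rw [map_add, Pi.add_apply, Pi.add_apply, ha, hb, map_add]
  · intro m m' hmm
    apply Prod.ext
    · apply h.sep
      intro b hb
      exact hmm _ (hle1 ⟨b, hb, rfl⟩)
    · apply h'.sep
      intro b hb
      exact hmm _ (hle2 ⟨b, hb, rfl⟩)

/-- the evaluation characters are linearly independent -/
lemma ev_li (h : IsSepAlg p act B) [Fintype X] (c : X → Om)
    (hc : ∀ b ∈ B, ∑ x, c x * b x = 0) (x : X) : c x = 0 := by
  have hF : Function.Injective (fun x : X => (ev B x : B →* Om)) := by
    intro x y hxy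
    apply h.sep
    intro b hb
    exact DFunLike.congr_fun hxy ⟨b, hb⟩
  have hli := (linearIndependent_monoidHom B Om).comp _ hF
  rw [Fintype.linearIndependent_iff] at hli
  apply hli c
  funext b
  have := hc b b.2
  simpa using this

/-- the `ℚ̄`-span of `B` is everything. -/
lemma span_eq_top (h : IsSepAlg p act B) [Finite X] :
    Submodule.span Om (B : Set (X → Om)) = ⊤ := by
  classical
  cases nonempty_fintype X
  by_contra hne
  obtain ⟨f, hf0, hf⟩ := Submodule.exists_le_ker_of_lt_top _ (lt_top_iff_ne_top.mpr hne)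
  apply hf0
  have key : ∀ g : X → Om, f g = ∑ x, f (Pi.single x 1) * g x := by
    intro g
    conv_lhs => rw [show g = ∑ x, g x • (Pi.single x (1 : Om) : X → Om) by
      funext y
      simp [Finset.sum_apply, Pi.single_apply]]
    rw [map_sum]
    refine Finset.sum_congr rfl fun x _ => ?_
    rw [map_smul, smul_eq_mul, mul_comm]
  have hzero : ∀ x, f (Pi.single x 1) = 0 := by
    apply h.ev_li
    intro b hb
    rw [← key]
    exact hf (Submodule.subset_span hb)
  apply LinearMap.ext
  intro g
  rw [key]
  simp [hzero]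

/-- every equivariant function is, up to a nonzero integer, in `B`. -/
lemma exists_smul_mem (h : IsSepAlg p act B) [Finite X] {f : X → Om} (hf : Equivariant act f) :
    ∃ n : ℕ, n ≠ 0 ∧ (n : X → Om) * f ∈ B := by
  classical
  have := h.fin
  let b := Module.Free.chooseBasis (Rp p) B
  have hb := li_basis h.act_surjective B h.equivariant b b.linearIndependent
  have hmem : f ∈ Submodule.span Om (Set.range fun i => (b i : X → Om)) := by
    have h1 : Submodule.span Om (B : Set (X → Om)) ≤
        Submodule.span Om (Set.range fun i => (b i : X → Om)) := by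
      rw [Submodule.span_le]
      intro x hx
      have h2 := b.sum_repr ⟨x, hx⟩
      have h3 : x = ∑ i, algebraMap (Rp p) Om (b.repr ⟨x, hx⟩ i) • (b i : X → Om) := by
        conv_lhs => rw [show x = ((⟨x, hx⟩ : B) : X → Om) from rfl, ← h2]
        rw [AddSubmonoidClass.coe_finsetSum]
        refine Finset.sum_congr rfl fun i _ => ?_
        funext y
        exact Algebra.smul_def (A := Om) (b.repr ⟨x, hx⟩ i) ((b i : X → Om) y)
      rw [h3]
      exact Submodule.sum_mem _ fun i _ => Submodule.smul_mem _ _ (Submodule.subset_span ⟨i, rfl⟩)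
    exact h1 (h.span_eq_top ▸ Submodule.mem_top)
  obtain ⟨c, hc⟩ := (Submodule.mem_span_range_iff_exists_fun Om).mp hmem
  have hfix : ∀ i, ∀ σ : GQ, σ (c i) = c i := by
    intro i σ
    rw [Fintype.linearIndependent_iff] at hb
    have := hb (fun i => σ (c i) - c i) (by
      funext y
      obtain ⟨x, rfl⟩ := h.act_surjective σ y
      have h1 : f (act σ x) = σ (f x) := hf σ x
      rw [← hc] at h1
      simp only [Finset.sum_apply, Pi.smul_apply, smul_eq_mul, map_sum, map_mul,
        Pi.zero_apply, sub_mul, Finset.sum_sub_distrib] at h1 ⊢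
      rw [h1, sub_eq_zero]
      refine Finset.sum_congr rfl fun i _ => ?_
      rw [h.equivariant _ (b i).2]) i
    exact sub_eq_zero.mp this
  choose q hq using fun i => fixed_mem_range (hfix i)
  choose n hn0 hn using fun i => exists_nat_mul_mem_Rp p (q i)
  refine ⟨∏ i, n i, Finset.prod_ne_zero_iff.mpr fun i _ => hn0 i, ?_⟩
  rw [← hc, Finset.mul_sum]
  refine B.sum_mem fun i _ => ?_
  have hmem2 : ((∏ i, n i : ℕ) : ℚ) * q i ∈ Rp p := by
    rw [← Finset.mul_prod_erase _ _ (Finset.mem_univ i)]
    push_cast
    rw [mul_comm (n i : ℚ), mul_assoc]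
    refine (Rp p).mul_mem ?_ (hn i)
    have := natCast_mem (Rp p) (∏ j ∈ Finset.univ.erase i, n j)
    push_cast at this
    exact this
  have : ((∏ i, n i : ℕ) : X → Om) * c i • (b i : X → Om) =
      (⟨_, hmem2⟩ : Rp p) • (b i : X → Om) := by
    funext x
    have hs : ((⟨_, hmem2⟩ : Rp p) • (b i : X → Om)) x =
      algebraMap (Rp p) Om (⟨_, hmem2⟩ : Rp p) * (b i : X → Om) x :=
        Algebra.smul_def (A := Om) (⟨_, hmem2⟩ : Rp p) ((b i : X → Om) x)
    rw [hs, Rp_algebraMap_Om, map_mul, hq i, Pi.mul_apply, Pi.smul_apply, smul_eq_mul, mul_assoc]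
    congr 1
  rw [this]
  exact B.smul_mem (b i).2 _

end IsSepAlg

section Quotient

variable {M M' : Type} [AddCommGroup M] [AddCommGroup M'] {act : GQ → M → M}
  {act' : GQ → M' → M'} {B : Subalgebra (Rp p) (M → Om)}

/-- the algebra of functions on a quotient -/
lemma quot_isSepAlg (hB : IsModel p act B) [Finite M] (π : M →+ M') (hπ : Function.Surjective π)
    (hact : ∀ σ m, π (act σ m) = act' σ (π m)) :
    IsSepAlg p act' (B.comap (pull p π)) := by
  classical
  cases nonempty_fintype M
  have heq : ∀ b ∈ B.comap (pull p π), Equivariant act' b := by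
    intro b hb σ x
    obtain ⟨m, rfl⟩ := hπ x
    rw [← hact]
    exact hB.equivariant _ hb σ m
  refine ⟨?_, heq, ?_⟩
  · have := hB.fin
    let f : B.comap (pull p π) →ₗ[Rp p] B :=
      ((pull p π).toLinearMap.comp (B.comap (pull p π)).val.toLinearMap).codRestrict
        (Subalgebra.toSubmodule B) fun b => b.2
    have hf : Function.Injective f := by
      intro a b hab
      apply Subtype.ext
      funext x
      obtain ⟨m, rfl⟩ := hπ x
      exact congrFun (congrArg Subtype.val hab) m
    exact Module.Finite.of_injective f hf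
  · intro x y hxy
    obtain ⟨m, rfl⟩ := hπ x
    obtain ⟨m', rfl⟩ := hπ y
    let tr : (M → Om) → M' → Om := fun b z => ∑ m, if π m = z then b m else 0
    have htr : ∀ b ∈ B, tr b (π m) = tr b (π m') := by
      intro b hb
      have h1 : Equivariant act (fun m => tr b (π m)) := by
        intro σ m
        change (∑ n, if π n = π (act σ m) then b n else 0) = σ (∑ n, if π n = π m then b n else 0)
        rw [map_sum]
        let e : M ≃ M := Equiv.ofBijective (act σ)
          ⟨hB.isSepAlg.act_injective σ, hB.act_surjective σ⟩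
        rw [← Equiv.sum_comp e]
        refine Finset.sum_congr rfl fun n _ => ?_
        change (if π (act σ n) = π (act σ m) then b (act σ n) else 0) = _
        have hiff : π (act σ n) = π (act σ m) ↔ π n = π m := by
          constructor
          · intro h
            have h2 := congrArg (act' σ⁻¹) h
            rw [← hact, ← hact, hB.act_inv_act, hB.act_inv_act] at h2
            exact h2
          · intro h
            rw [hact, hact, h]
        by_cases h : π n = π m
        · rw [if_pos (hiff.mpr h), if_pos h, hB.equivariant b hb]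
        · rw [if_neg (fun h' => h (hiff.mp h')), if_neg h, map_zero]
      obtain ⟨n, hn, hmem⟩ := hB.isSepAlg.exists_smul_mem h1
      have h2 : (n : M' → Om) * tr b ∈ B.comap (pull p π) := hmem
      have h3 := hxy _ h2
      have h4 : (n : Om) * tr b (π m) = (n : Om) * tr b (π m') := h3
      exact mul_left_cancel₀ (Nat.cast_ne_zero.mpr hn) h4
    by_contra hne
    have h5 := hB.isSepAlg.ev_li (fun n => (if π n = π m then 1 else 0) - (if π n = π m' then 1 else 0))
      (by
        intro b hb
        have h6 := htr b hb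
        simp only [tr] at h6
        rw [← sub_eq_zero, ← Finset.sum_sub_distrib] at h6
        refine Eq.trans ?_ h6
        refine Finset.sum_congr rfl fun n _ => ?_
        split_ifs <;> simp) m
    simp only [if_true] at h5
    rw [if_neg hne] at h5
    simp at h5

/-- a retraction of `B` onto the functions which are pulled back from the quotient -/
lemma exists_retraction (hB : IsModel p act B) (π : M →+ M') (hπ : Function.Surjective π) :
    ∃ P : B →ₗ[Rp p] B, (∀ b, (P b : M → Om) ∈ (B.comap (pull p π)).map (pull p π)) ∧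
      ∀ b : B, (b : M → Om) ∈ (B.comap (pull p π)).map (pull p π) → P b = b := by
  classical
  have := hB.fin
  let K : Submodule (Rp p) B :=
    (Subalgebra.toSubmodule ((B.comap (pull p π)).map (pull p π))).comap B.val.toLinearMap
  have hK : ∀ b : B, b ∈ K ↔ (b : M → Om) ∈ (B.comap (pull p π)).map (pull p π) := fun b => Iff.rfl
  have hK2 : ∀ b : B, b ∈ K ↔ ∀ m m', π m = π m' → (b : M → Om) m = (b : M → Om) m' := by
    intro b
    rw [hK]
    constructor
    · rintro ⟨c, hc, hcb⟩ m m' hmm
      rw [← hcb]
      change c (π m) = c (π m')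
      rw [hmm]
    · intro h
      refine ⟨fun z => (b : M → Om) (Function.surjInv hπ z), ?_, ?_⟩
      · change (pull p π) (fun z => (b : M → Om) (Function.surjInv hπ z)) ∈ B
        convert b.2 using 1
        funext m
        exact h _ _ (Function.surjInv_eq hπ (π m))
      · funext m
        exact h _ _ (Function.surjInv_eq hπ (π m))
  have htf : Module.IsTorsionFree (Rp p) (B ⧸ K) := by
    refine Module.IsTorsionFree.of_smul_eq_zero fun r x h => ?_
    obtain ⟨b, rfl⟩ := K.mkQ_surjective x
    rw [or_iff_not_imp_left]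
    intro hr
    rw [← map_smul, Submodule.mkQ_apply, Submodule.Quotient.mk_eq_zero, hK2] at h
    rw [Submodule.mkQ_apply, Submodule.Quotient.mk_eq_zero, hK2]
    intro m m' hmm
    have h1 := h m m' hmm
    have h2 : ∀ m, ((r • b : B) : M → Om) m = algebraMap (Rp p) Om r * (b : M → Om) m :=
      fun m => Algebra.smul_def (A := Om) r ((b : M → Om) m)
    rw [h2, h2] at h1
    refine mul_left_cancel₀ ?_ h1
    intro h0
    exact hr (Rp_algebraMap_Om_injective (by rw [h0, map_zero]))
  obtain ⟨s, hs⟩ := Module.projective_lifting_property K.mkQ LinearMap.id K.mkQ_surjective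
  refine ⟨LinearMap.id - s.comp K.mkQ, ?_, ?_⟩
  · intro b
    rw [← hK, ← Submodule.Quotient.mk_eq_zero, ← Submodule.mkQ_apply]
    rw [LinearMap.sub_apply, map_sub, LinearMap.comp_apply, LinearMap.id_apply]
    have := LinearMap.congr_fun hs (K.mkQ b)
    rw [LinearMap.comp_apply, LinearMap.id_apply] at this
    rw [this, sub_self]
  · intro b hb
    rw [← hK, ← Submodule.Quotient.mk_eq_zero, ← Submodule.mkQ_apply] at hb
    rw [LinearMap.sub_apply, LinearMap.comp_apply, LinearMap.id_apply, hb, map_zero, sub_zero]

/-- Quotients of finite flat modules are finite flat. -/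
theorem IsFlatModule.of_surjective (h : IsFlatModule p act) (π : M →+ M')
    (hπ : Function.Surjective π) (hact : ∀ σ m, π (act σ m) = act' σ (π m)) :
    IsFlatModule p act' := by
  obtain ⟨hfinM, B, hB⟩ := h.exists_model
  have : Finite M' := Finite.of_surjective π hπ
  have hsep := quot_isSepAlg hB π hπ hact
  have hM : IsModel p act' (B.comap (pull p π)) := by
    refine ⟨hsep.fin, hsep.equivariant, hsep.sep, ?_⟩
    rintro _ ⟨c, hc, rfl⟩
    -- the pullback of `c` to `M × M` is in the image of `B ⊗ B`
    have hfin := hB.fin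
    let b : M → Om := pull p π c
    have hb : b ∈ B := hc
    obtain ⟨u, hu⟩ : ∃ u : B ⊗[Rp p] B, mu B B u = IsModel.delta B ⟨b, hb⟩ := hB.delta_mem_range ⟨b, hb⟩
    -- a multiple of `c ∘ add` is in the algebra generated by the pullbacks
    have hprod := hsep.prod hsep
    let F : M' × M' → Om := pull p (fun x : M' × M' => x.1 + x.2) c
    have hactadd : ∀ σ (x y : M'), act' σ (x + y) = act' σ x + act' σ y := by
      intro σ x y
      obtain ⟨m, rfl⟩ := hπ x
      obtain ⟨n, rfl⟩ := hπ y
      rw [← map_add, ← hact, ← hact, ← hact, hB.act_add, map_add]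
    have hF : Equivariant (fun σ (x : M' × M') => (act' σ x.1, act' σ x.2)) F := by
      intro σ x
      change c (act' σ x.1 + act' σ x.2) = σ (c (x.1 + x.2))
      rw [← hactadd, hsep.equivariant c hc]
    obtain ⟨n, hn, hmem⟩ := hprod.exists_smul_mem hF
    rw [← mu_range] at hmem
    obtain ⟨w, hw⟩ := hmem
    -- transfer to `B ⊗ B`
    let ι : B.comap (pull p π) →ₐ[Rp p] B :=
      ((pull p π).comp (B.comap (pull p π)).val).codRestrict B fun b => b.2
    let ιι := Algebra.TensorProduct.map ι ι
    have hιι : ∀ w : (B.comap (pull p π)) ⊗[Rp p] (B.comap (pull p π)), ∀ x : M × M,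
        mu B B (ιι w) x = mu (B.comap (pull p π)) (B.comap (pull p π)) w (π x.1, π x.2) := by
      intro w x
      induction w using TensorProduct.induction_on with
      | zero => rw [map_zero, map_zero, map_zero]; rfl
      | tmul a b => rfl
      | add a b ha hb => rw [map_add, map_add, map_add, Pi.add_apply, Pi.add_apply, ha, hb]
    have hwu : ιι w = (n : Rp p) • u := by
      apply mu_injective hB.act_surjective hB.act_surjective B hB.equivariant B hB.equivariant
      funext x
      rw [hιι, map_smul, hu]
      have h1 : mu (B.comap (pull p π)) (B.comap (pull p π)) w (π x.1, π x.2) =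
        (n : Om) * F (π x.1, π x.2) := congrFun hw (π x.1, π x.2)
      rw [h1]
      have h2 : ((n : Rp p) • IsModel.delta B ⟨b, hb⟩ : M × M → Om) x =
        algebraMap (Rp p) Om (n : Rp p) * (IsModel.delta B ⟨b, hb⟩ x) :=
          Algebra.smul_def (A := Om) (n : Rp p) (IsModel.delta B ⟨b, hb⟩ x)
      rw [h2, map_natCast]
      change (n : Om) * c (π x.1 + π x.2) = (n : Om) * c (π (x.1 + x.2))
      rw [map_add]
    obtain ⟨P, hP1, hP2⟩ := exists_retraction hB π hπ
    have hPw : TensorProduct.map P P (ιι w) = ιι w := by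
      clear hw hwu
      induction w using TensorProduct.induction_on with
      | zero => rw [map_zero, map_zero]
      | tmul a b =>
        have ha : P (ι a) = ι a := hP2 _ ⟨a, a.2, rfl⟩
        have hb : P (ι b) = ι b := hP2 _ ⟨b, b.2, rfl⟩
        change P (ι a) ⊗ₜ P (ι b) = ι a ⊗ₜ ι b
        rw [ha, hb]
      | add a b ha hb => rw [map_add, map_add, ha, hb]
    have hPu : TensorProduct.map P P u = u := by
      have h1 : (n : Rp p) • TensorProduct.map P P u = (n : Rp p) • u := by
        rw [← map_smul, ← hwu, hPw]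
      apply mu_injective hB.act_surjective hB.act_surjective B hB.equivariant B hB.equivariant
      have h2 := congrArg (mu B B) h1
      rw [map_smul, map_smul] at h2
      funext x
      have h3 := congrFun h2 x
      have h4 : ∀ G : M × M → Om, ((n : Rp p) • G) x = algebraMap (Rp p) Om (n : Rp p) * G x :=
        fun G => Algebra.smul_def (A := Om) (n : Rp p) (G x)
      rw [h4, h4, map_natCast] at h3
      exact mul_left_cancel₀ (Nat.cast_ne_zero.mpr hn) h3
    -- conclusion
    have hfinal : ∀ v : B ⊗[Rp p] B, ∃ G ∈ (B.comap (pull p π)).map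
        (pull p (Prod.fst : M' × M' → M')) ⊔ (B.comap (pull p π)).map
        (pull p (Prod.snd : M' × M' → M')), ∀ x : M × M,
        mu B B (TensorProduct.map P P v) x = G (π x.1, π x.2) := by
      intro v
      induction v using TensorProduct.induction_on with
      | zero => exact ⟨0, Subalgebra.zero_mem _, fun x => by rw [map_zero, map_zero]; rfl⟩
      | tmul a b =>
        obtain ⟨a', ha', haa'⟩ := hP1 a
        obtain ⟨b', hb', hbb'⟩ := hP1 b
        refine ⟨pull p Prod.fst a' * pull p Prod.snd b', Subalgebra.mul_mem _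
          (le_sup_left (α := Subalgebra (Rp p) (M' × M' → Om)) ⟨a', ha', rfl⟩)
          (le_sup_right (α := Subalgebra (Rp p) (M' × M' → Om)) ⟨b', hb', rfl⟩), ?_⟩
        intro x
        change (P a : M → Om) x.1 * (P b : M → Om) x.2 = a' (π x.1) * b' (π x.2)
        rw [← haa', ← hbb']
        rfl
      | add a b ha hb =>
        obtain ⟨Ga, hGa, hGa'⟩ := ha
        obtain ⟨Gb, hGb, hGb'⟩ := hb
        refine ⟨Ga + Gb, Subalgebra.add_mem _ hGa hGb, fun x => ?_⟩
        rw [map_add, map_add, Pi.add_apply, hGa', hGb', Pi.add_apply]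
    obtain ⟨G, hG, hG'⟩ := hfinal u
    have hGF : (pull p (fun x : M' × M' => x.1 + x.2) c) = G := by
      funext ⟨x, y⟩
      obtain ⟨m, rfl⟩ := hπ x
      obtain ⟨m', rfl⟩ := hπ y
      have h1 := hG' (m, m')
      rw [hPu, hu] at h1
      rw [← h1]
      change c (π m + π m') = c (π (m + m'))
      rw [map_add]
    have h5 : (pull p (fun x : M' × M' => x.1 + x.2) c) ∈ (B.comap (pull p π)).map
        (pull p (Prod.fst : M' × M' → M')) ⊔ (B.comap (pull p π)).map
        (pull p (Prod.snd : M' × M' → M')) := hGF ▸ hG
    exact h5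
  exact hM.isFlatModule

end Quotient

end Fermat.Agent.FlatGS
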